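import Fermat.Agent.Corollaries.Thue.Thm

/-!
# Thue's theorem, VI: Thue equations

`F(x, y) = m` has only finitely many integral solutions if `F` is a binary form of degree `≥ 3`
without multiple factors.
-/

open Polynomial Finset

namespace Fermat.Agent.Cor.Thue

/-- For a polynomial without multiple roots the value at a point is at least a constant times the
distance to the nearest root. -/
theorem exists_dist_le {f : ℂ[X]} (hf : f.Separable) :
    ∃ c : ℝ, 0 < c ∧ ∀ t : ℂ, f.natDegree ≠ 0 → ∃ z ∈ f.roots, c * ‖t - z‖ ≤ ‖f.eval t‖ := by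
  classical
  have hf0 : f ≠ 0 := hf.ne_zero
  have hnd : f.roots.Nodup := nodup_roots hf
  set Z : Finset ℂ := ⟨f.roots, hnd⟩ with hZ
  have hval : ∀ t : ℂ, ‖f.eval t‖ = ‖f.leadingCoeff‖ * ∏ z ∈ Z, ‖t - z‖ := by
    intro t
    rw [(IsAlgClosed.splits f).eval_eq_prod_roots, norm_mul]
    congr 1
    have h1 : (f.roots.map (t - ·)).prod = ∏ z ∈ Z, (t - z) := rfl
    rw [h1, norm_prod]
  obtain ⟨δ, hδ0, hδ⟩ : ∃ δ : ℝ, 0 < δ ∧ ∀ z ∈ Z, ∀ w ∈ Z, z ≠ w → δ ≤ ‖z - w‖ := by
    rcases Z.offDiag.eq_empty_or_nonempty with h | h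
    · refine ⟨1, one_pos, fun z hz w hw hzw => ?_⟩
      have : (z, w) ∈ Z.offDiag := mem_offDiag.mpr ⟨hz, hw, hzw⟩
      rw [h] at this
      simp at this
    · obtain ⟨p, hp, hpm⟩ := exists_min_image Z.offDiag (fun p => ‖p.1 - p.2‖) h
      refine ⟨‖p.1 - p.2‖, norm_pos_iff.mpr (sub_ne_zero.mpr (mem_offDiag.mp hp).2.2),
        fun z hz w hw hzw => hpm (z, w) (mem_offDiag.mpr ⟨hz, hw, hzw⟩)⟩
  have hlc : 0 < ‖f.leadingCoeff‖ := norm_pos_iff.mpr (leadingCoeff_ne_zero.mpr hf0)
  refine ⟨‖f.leadingCoeff‖ * (δ / 2) ^ (Z.card - 1), by positivity, fun t hdeg => ?_⟩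
  have hne : Z.Nonempty := by
    rw [← Finset.card_pos]
    change 0 < Multiset.card f.roots
    rw [← (IsAlgClosed.splits f).natDegree_eq_card_roots]
    omega
  obtain ⟨z₀, hz₀, hmin⟩ := exists_min_image Z (fun z => ‖t - z‖) hne
  refine ⟨z₀, hz₀, ?_⟩
  rw [hval t, ← mul_prod_erase Z (fun z => ‖t - z‖) hz₀]
  have h1 : (δ / 2) ^ (Z.card - 1) ≤ ∏ z ∈ Z.erase z₀, ‖t - z‖ := by
    rw [← card_erase_of_mem hz₀, ← prod_const]
    refine prod_le_prod (fun _ _ => by positivity) fun z hz => ?_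
    have h2 := hmin z (mem_of_mem_erase hz)
    have h3 := hδ z (mem_of_mem_erase hz) z₀ hz₀ (ne_of_mem_erase hz)
    have h4 : ‖z - z₀‖ ≤ ‖t - z₀‖ + ‖t - z‖ := by
      calc ‖z - z₀‖ = ‖(t - z₀) - (t - z)‖ := by ring_nf
        _ ≤ _ := norm_sub_le _ _
    linarith
  calc ‖f.leadingCoeff‖ * (δ / 2) ^ (Z.card - 1) * ‖t - z₀‖
      = ‖f.leadingCoeff‖ * (‖t - z₀‖ * (δ / 2) ^ (Z.card - 1)) := by ring
    _ ≤ _ := by
        refine mul_le_mul_of_nonneg_left ?_ hlc.le
        exact mul_le_mul_of_nonneg_left h1 (norm_nonneg _)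

/-- The rational numbers close to a root. -/
theorem finite_near {F : ℤ[X]} (hF0 : F ≠ 0) (hd : 3 ≤ F.natDegree) {z : ℂ}
    (hz : aeval z F = 0) (K : ℝ) :
    {t : ℚ | ‖(t : ℂ) - z‖ * (t.den : ℝ) ^ F.natDegree ≤ K}.Finite := by
  have hK : ∀ t : ℚ, ‖(t : ℂ) - z‖ * (t.den : ℝ) ^ F.natDegree ≤ K →
      ‖(t : ℂ) - z‖ ≤ K := by
    intro t ht
    refine le_trans ?_ ht
    have h1 : (1 : ℝ) ≤ (t.den : ℝ) ^ F.natDegree :=
      one_le_pow₀ (by exact_mod_cast t.den_pos)
    exact le_mul_of_one_le_right (norm_nonneg _) h1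
  by_cases him : z.im = 0
  · -- real roots
    have hzr : z = ((z.re : ℝ) : ℂ) := by
      apply Complex.ext <;> simp [him]
    have hα : aeval z.re F = 0 := by
      rw [hzr] at hz
      have h1 := aeval_algebraMap_apply (A := ℝ) ℂ z.re F
      rw [Complex.coe_algebraMap, hz] at h1
      exact_mod_cast h1.symm
    have hFQ : (F.map (algebraMap ℤ ℚ)) ≠ 0 :=
      (Polynomial.map_ne_zero_iff (algebraMap ℤ ℚ).injective_int).mpr hF0
    have hα' : aeval z.re (F.map (algebraMap ℤ ℚ)) = 0 := by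
      rw [aeval_map_algebraMap]; exact hα
    have halg : IsAlgebraic ℚ z.re := ⟨_, hFQ, hα'⟩
    have hdeg : (minpoly ℚ z.re).natDegree ≤ F.natDegree := by
      have h1 := natDegree_le_of_dvd (minpoly.dvd ℚ z.re hα') hFQ
      rwa [natDegree_map_eq_of_injective (algebraMap ℤ ℚ).injective_int] at h1
    have hdeg' : ((minpoly ℚ z.re).natDegree : ℝ) ≤ F.natDegree := by exact_mod_cast hdeg
    have hd' : (3 : ℝ) ≤ F.natDegree := by exact_mod_cast hd
    refine (thue_const halg (K + 1) (μ := (F.natDegree : ℝ)) (by linarith)).subset fun t ht => ?_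
    have ht0 : ‖(t : ℂ) - z‖ * (t.den : ℝ) ^ F.natDegree ≤ K := ht
    change |z.re - t| < (K + 1) * (t.den : ℝ) ^ (-(F.natDegree : ℝ))
    have hd0 : (0 : ℝ) < (t.den : ℝ) ^ F.natDegree := by
      have : (0 : ℝ) < t.den := by exact_mod_cast t.den_pos
      positivity
    have h1 : ‖(t : ℂ) - z‖ = |z.re - t| := by
      rw [abs_sub_comm, ← Real.norm_eq_abs, ← Complex.norm_real]
      congr 1
      push_cast
      rw [← hzr]
    rw [h1] at ht0
    rw [Real.rpow_neg (by positivity), Real.rpow_natCast, ← div_eq_mul_inv, lt_div_iff₀ hd0]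
    linarith
  · -- non-real roots
    have him0 : 0 < |z.im| := abs_pos.mpr him
    obtain ⟨N, hN⟩ := exists_nat_ge (K / |z.im|)
    refine (finite_den_le z.re (K + 1) N).subset fun t ht => ?_
    have ht0 : ‖(t : ℂ) - z‖ * (t.den : ℝ) ^ F.natDegree ≤ K := ht
    have h1 : |z.im| ≤ ‖(t : ℂ) - z‖ := by
      have h2 := Complex.abs_im_le_norm ((t : ℂ) - z)
      simpa using h2
    have h3 : |z.re - t| ≤ ‖(t : ℂ) - z‖ := by
      have h2 := Complex.abs_re_le_norm ((t : ℂ) - z)
      rw [abs_sub_comm]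
      simpa using h2
    refine ⟨?_, by
      have h4 := h3.trans (hK t ht0)
      linarith⟩
    have hd1 : (1 : ℝ) ≤ t.den := by exact_mod_cast t.den_pos
    have h4 : (t.den : ℝ) ≤ (t.den : ℝ) ^ F.natDegree := by
      calc (t.den : ℝ) = (t.den : ℝ) ^ 1 := (pow_one _).symm
        _ ≤ _ := pow_le_pow_right₀ hd1 (by omega)
    have h5 : |z.im| * t.den ≤ K :=
      (mul_le_mul h1 h4 (by positivity) (norm_nonneg _)).trans ht0
    have h6 : (t.den : ℝ) ≤ N := by
      refine le_trans ?_ hN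
      rw [le_div_iff₀ him0]
      linarith
    exact_mod_cast h6

/-- The value of the binary form of degree `n` attached to `F`. -/
def form (F : ℤ[X]) (n : ℕ) (x y : ℤ) : ℤ :=
  ∑ i ∈ range (n + 1), F.coeff i * x ^ i * y ^ (n - i)

theorem form_eq (F : ℤ[X]) (x y : ℤ) (hy : y ≠ 0) :
    ((form F F.natDegree x y : ℤ) : ℚ)
      = (y : ℚ) ^ F.natDegree * aeval ((x : ℚ) / y) F := by
  have hy' : (y : ℚ) ≠ 0 := by exact_mod_cast hy
  rw [form, aeval_eq_sum_range, mul_sum]
  push_cast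
  refine sum_congr rfl fun i hi => ?_
  rw [mem_range] at hi
  have h1 : (y : ℚ) ^ F.natDegree = (y : ℚ) ^ (F.natDegree - i) * (y : ℚ) ^ i := by
    rw [← pow_add]
    congr 1
    omega
  rw [h1, zsmul_eq_mul, div_pow]
  field_simp

/-- For fixed `y` there are only finitely many `x`. -/
theorem finite_fixed (F : ℤ[X]) (hd : 0 < F.natDegree) (m y : ℤ) :
    {x : ℤ | form F F.natDegree x y = m}.Finite := by
  classical
  set G : ℤ[X] := ∑ i ∈ range (F.natDegree + 1), C (F.coeff i * y ^ (F.natDegree - i)) * X ^ i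
    - C m with hG
  have hcoeff : G.coeff F.natDegree = F.leadingCoeff := by
    rw [hG, coeff_sub, finsetSum_coeff, coeff_C_of_ne_zero (by omega), sub_zero]
    rw [sum_eq_single F.natDegree]
    · rw [coeff_C_mul, coeff_X_pow, if_pos rfl]
      simp
    · intro i _ hi
      rw [coeff_C_mul, coeff_X_pow, if_neg (Ne.symm hi), mul_zero]
    · intro h
      exact absurd (mem_range.mpr (Nat.lt_succ_self _)) h
  have hG0 : G ≠ 0 := by
    intro h
    rw [h, coeff_zero] at hcoeff
    have h1 : F = 0 := leadingCoeff_eq_zero.mp hcoeff.symm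
    rw [h1, natDegree_zero] at hd
    exact lt_irrefl _ hd
  refine (G.roots.toFinset.finite_toSet).subset fun x hx => ?_
  have hx0 : form F F.natDegree x y = m := hx
  rw [mem_coe, Multiset.mem_toFinset, mem_roots hG0, IsRoot, hG, eval_sub, eval_C,
    eval_finsetSum, ← hx0, form, sub_eq_zero]
  refine sum_congr rfl fun i _ => ?_
  rw [eval_mul, eval_C, eval_pow, eval_X]
  ring

/-- **Thue's theorem on Thue equations**: a binary form of degree `≥ 3` without multiple factors
takes every value `m ≠ 0` only finitely many times. -/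
theorem thue_equation {F : ℤ[X]} (hsq : Squarefree (F.map (Int.castRingHom ℚ)))
    (hd : 3 ≤ F.natDegree) {m : ℤ} (hm : m ≠ 0) :
    {p : ℤ × ℤ | form F F.natDegree p.1 p.2 = m}.Finite := by
  classical
  have hF0 : F ≠ 0 := by
    intro h
    rw [h, natDegree_zero] at hd
    omega
  set f : ℂ[X] := F.map (Int.castRingHom ℂ) with hf
  have hfdeg : f.natDegree = F.natDegree := natDegree_map_eq_of_injective Int.cast_injective F
  have hsep : f.Separable := by
    have h1 : (F.map (Int.castRingHom ℚ)).Separable :=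
      PerfectField.separable_iff_squarefree.mpr hsq
    have h2 : f = (F.map (Int.castRingHom ℚ)).map (algebraMap ℚ ℂ) := by
      rw [hf, Polynomial.map_map]
      congr 1
    rw [h2]
    exact h1.map
  obtain ⟨c, hc0, hc⟩ := exists_dist_le hsep
  -- the rational numbers close to one of the roots
  set T : Set ℚ := ⋃ z ∈ f.roots.toFinset,
    {t : ℚ | ‖(t : ℂ) - z‖ * (t.den : ℝ) ^ F.natDegree ≤ |(m : ℝ)| / c} with hT
  have hTfin : T.Finite := by
    refine Set.Finite.biUnion (f.roots.toFinset.finite_toSet) fun z hz => ?_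
    refine finite_near hF0 hd ?_ _
    rw [mem_coe, Multiset.mem_toFinset, mem_roots hsep.ne_zero, IsRoot, hf, eval_map] at hz
    exact hz
  obtain ⟨Y, hY⟩ : ∃ Y : ℕ, ∀ t ∈ T, |(m : ℝ)| / |((aeval t F : ℚ) : ℝ)| ≤ Y := by
    obtain ⟨M, hM⟩ := (hTfin.image (fun t : ℚ => |(m : ℝ)| / |((aeval t F : ℚ) : ℝ)|)).bddAbove
    obtain ⟨Y, hY⟩ := exists_nat_ge M
    exact ⟨Y, fun t ht => (hM ⟨t, ht, rfl⟩).trans hY⟩
  have hcover : {p : ℤ × ℤ | form F F.natDegree p.1 p.2 = m} ⊆
      ⋃ y ∈ Set.Icc (-(Y : ℤ)) Y, (fun x : ℤ => (x, y)) '' {x : ℤ | form F F.natDegree x y = m} := by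
    rintro ⟨x, y⟩ hxy
    have hxy0 : form F F.natDegree x y = m := hxy
    rw [Set.mem_iUnion₂]
    refine ⟨y, ?_, x, hxy0, rfl⟩
    by_cases hy : y = 0
    · rw [hy]
      constructor <;> omega
    have hyr : (y : ℝ) ≠ 0 := by exact_mod_cast hy
    have hy1 : (1 : ℝ) ≤ |(y : ℝ)| := by exact_mod_cast Int.one_le_abs hy
    set t : ℚ := (x : ℚ) / y with ht
    have hform := form_eq F x y hy
    rw [hxy0, ← ht] at hform
    have hform' : |(m : ℝ)| = |(y : ℝ)| ^ F.natDegree * |((aeval t F : ℚ) : ℝ)| := by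
      have h1 := congrArg (fun r : ℚ => |(r : ℝ)|) hform
      push_cast at h1
      rw [h1, abs_mul, abs_pow]
    have hval0 : ((aeval t F : ℚ) : ℝ) ≠ 0 := by
      intro h
      rw [h, abs_zero, mul_zero, abs_eq_zero] at hform'
      exact hm (by exact_mod_cast hform')
    have hvalpos : 0 < |((aeval t F : ℚ) : ℝ)| := abs_pos.mpr hval0
    -- `t ∈ T`
    have hft : ‖f.eval (t : ℂ)‖ = |((aeval t F : ℚ) : ℝ)| := by
      have h1 : f.eval (t : ℂ) = ((aeval t F : ℚ) : ℂ) := by
        have h2 := aeval_algebraMap_apply (A := ℚ) ℂ t F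
        rw [eq_ratCast, eq_ratCast] at h2
        rw [← h2, hf, eval_map]
        rfl
      rw [h1]
      have h3 : (((aeval t F : ℚ)) : ℂ) = ((((aeval t F : ℚ)) : ℝ) : ℂ) := by push_cast; rfl
      rw [h3, Complex.norm_real, Real.norm_eq_abs]
    have htT : t ∈ T := by
      obtain ⟨z, hz, hzc⟩ := hc (t : ℂ) (by rw [hfdeg]; omega)
      rw [hT, Set.mem_iUnion₂]
      refine ⟨z, Multiset.mem_toFinset.mpr hz, ?_⟩
      change ‖(t : ℂ) - z‖ * (t.den : ℝ) ^ F.natDegree ≤ |(m : ℝ)| / c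
      rw [le_div_iff₀ hc0]
      have hden : (t.den : ℝ) ≤ |(y : ℝ)| := by
        have h1 : (t.den : ℤ) ∣ y := by
          have h0 := Rat.den_dvd x y
          rwa [Rat.divInt_eq_div] at h0
        have h2 := Int.le_of_dvd (abs_pos.mpr hy) ((dvd_abs _ _).mpr h1)
        exact_mod_cast h2
      have hpow : (t.den : ℝ) ^ F.natDegree ≤ |(y : ℝ)| ^ F.natDegree :=
        pow_le_pow_left₀ (by positivity) hden _
      rw [hft] at hzc
      calc ‖(t : ℂ) - z‖ * (t.den : ℝ) ^ F.natDegree * c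
          = (t.den : ℝ) ^ F.natDegree * (c * ‖(t : ℂ) - z‖) := by ring
        _ ≤ |(y : ℝ)| ^ F.natDegree * |((aeval t F : ℚ) : ℝ)| :=
            mul_le_mul hpow hzc (by positivity) (by positivity)
        _ = |(m : ℝ)| := hform'.symm
    have h1 := hY t htT
    rw [hform', mul_div_assoc, div_self hvalpos.ne', mul_one] at h1
    have h2 : |(y : ℝ)| ≤ |(y : ℝ)| ^ F.natDegree := by
      calc |(y : ℝ)| = |(y : ℝ)| ^ 1 := (pow_one _).symm
        _ ≤ _ := pow_le_pow_right₀ hy1 (by omega)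
    have h3 : |(y : ℝ)| ≤ Y := h2.trans h1
    have h4 : |y| ≤ (Y : ℤ) := by exact_mod_cast h3
    exact abs_le.mp h4
  refine Set.Finite.subset ?_ hcover
  refine Set.Finite.biUnion (Set.finite_Icc _ _) fun y _ => ?_
  exact (finite_fixed F (by omega) m y).image _

/-- Thue equations with an irreducible form (all `m`). -/
theorem thue_equation_irreducible {F : ℤ[X]} (hirr : Irreducible (F.map (Int.castRingHom ℚ)))
    (hd : 3 ≤ F.natDegree) (m : ℤ) :
    {p : ℤ × ℤ | form F F.natDegree p.1 p.2 = m}.Finite := by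
  by_cases hm : m = 0
  · have hcover : {p : ℤ × ℤ | form F F.natDegree p.1 p.2 = m} ⊆
        (fun x : ℤ => (x, (0 : ℤ))) '' {x : ℤ | form F F.natDegree x 0 = m} := by
      rintro ⟨x, y⟩ hxy
      have hxy0 : form F F.natDegree x y = m := hxy
      by_cases hy : y = 0
      · subst hy
        exact ⟨x, hxy0, rfl⟩
      · exfalso
        have hform := form_eq F x y hy
        rw [hxy0, hm, Int.cast_zero] at hform
        have hy' : (y : ℚ) ≠ 0 := by exact_mod_cast hy
        have h1 : aeval ((x : ℚ) / y) F = 0 :=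
          (mul_eq_zero.mp hform.symm).resolve_left (pow_ne_zero _ hy')
        have hr : (F.map (Int.castRingHom ℚ)).IsRoot ((x : ℚ) / y) := by
          rw [IsRoot, eval_map]
          exact h1
        have h3 : (F.map (Int.castRingHom ℚ)).degree = 1 :=
          degree_eq_one_of_irreducible_of_root hirr hr
        have h4 : (F.map (Int.castRingHom ℚ)).natDegree = 1 :=
          natDegree_eq_of_degree_eq_some (by simpa using h3)
        rw [natDegree_map_eq_of_injective Int.cast_injective] at h4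
        omega
    exact ((finite_fixed F (by omega) m 0).image _).subset hcover
  · exact thue_equation hirr.squarefree hd hm

end Fermat.Agent.Cor.Thue
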