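import Fermat.Agent.Corollaries.Thue.Equation

/-!
# Thue's theorem, VII: other forms of the statement, examples
-/

open Polynomial Finset

namespace Fermat.Agent.Cor.Thue

/-- Thue equations for a polynomial which is irreducible over `ℤ`. -/
theorem thue_equation_int {F : ℤ[X]} (hirr : Irreducible F) (hd : 3 ≤ F.natDegree) (m : ℤ) :
    {P : ℤ × ℤ | ∑ i ∈ range (F.natDegree + 1), F.coeff i * P.1 ^ i * P.2 ^ (F.natDegree - i)
      = m}.Finite := by
  have hp : F.IsPrimitive := hirr.isPrimitive (by omega)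
  exact thue_equation_irreducible
    ((IsPrimitive.Int.irreducible_iff_irreducible_map_cast hp).mp hirr) hd m

/-- The form `a x ^ n - b y ^ n`, `n ≥ 3`: every integer `m ≠ 0` is represented only finitely
often. -/
theorem finite_diagonal {a b : ℤ} (ha : a ≠ 0) (hb : b ≠ 0) {n : ℕ} (hn : 3 ≤ n) {m : ℤ}
    (hm : m ≠ 0) : {P : ℤ × ℤ | a * P.1 ^ n - b * P.2 ^ n = m}.Finite := by
  set F : ℤ[X] := C a * X ^ n - C b with hF
  have hdeg : F.natDegree = n := by
    rw [hF, natDegree_sub_C, natDegree_C_mul_X_pow n a ha]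
  have hsep : (F.map (Int.castRingHom ℚ)).Separable := by
    have ha' : (a : ℚ) ≠ 0 := by exact_mod_cast ha
    have hb' : (b : ℚ) ≠ 0 := by exact_mod_cast hb
    have hn' : (n : ℚ) ≠ 0 := by
      have : n ≠ 0 := by omega
      exact_mod_cast this
    have h1 : F.map (Int.castRingHom ℚ) = C (a : ℚ) * (X ^ n - C ((b : ℚ) / a)) := by
      rw [hF, Polynomial.map_sub, Polynomial.map_mul, Polynomial.map_pow, map_X, map_C, map_C,
        mul_sub, ← C_mul, mul_div_cancel₀ _ ha']
      rfl
    rw [h1]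
    have h2 : (X ^ n - C ((b : ℚ) / a)).Separable :=
      separable_X_pow_sub_C _ hn' (div_ne_zero hb' ha')
    exact Separable.unit_mul (isUnit_C.mpr (IsUnit.mk0 _ ha')) h2
  have hform : ∀ x y : ℤ, form F F.natDegree x y = a * x ^ n - b * y ^ n := by
    intro x y
    have h1 : ∀ i ∈ range (n + 1), F.coeff i * x ^ i * y ^ (n - i)
        = (if i = n then a * x ^ i * y ^ (n - i) else 0)
          - (if i = 0 then b * x ^ i * y ^ (n - i) else 0) := by
      intro i _
      rw [hF, coeff_sub, coeff_C_mul, coeff_X_pow, coeff_C]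
      split_ifs <;> ring
    rw [form, hdeg, sum_congr rfl h1, sum_sub_distrib, sum_ite_eq' (range (n + 1)) n,
      sum_ite_eq' (range (n + 1)) 0, if_pos (by simp), if_pos (by simp)]
    simp
  have h := thue_equation hsep.squarefree (by rw [hdeg]; exact hn) hm
  simp only [hform] at h
  exact h

/-- The equation `x ^ n - 2 y ^ n = m` and its relatives: for `n ≥ 3` and `b ≠ 0` every `m ≠ 0` is
of the form `x ^ n + b y ^ n` only finitely often. -/
theorem finite_pow_add {b : ℤ} (hb : b ≠ 0) {n : ℕ} (hn : 3 ≤ n) {m : ℤ} (hm : m ≠ 0) :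
    {P : ℤ × ℤ | P.1 ^ n + b * P.2 ^ n = m}.Finite := by
  have h := finite_diagonal (a := 1) (b := -b) one_ne_zero (neg_ne_zero.mpr hb) hn hm
  refine h.subset fun P hP => ?_
  have h1 : P.1 ^ n + b * P.2 ^ n = m := hP
  change 1 * P.1 ^ n - -b * P.2 ^ n = m
  linarith

end Fermat.Agent.Cor.Thue
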