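import Fermat.Agent.Corollaries.Thue.Wronski

/-!
# Thue's theorem, III: the estimates
-/

open Polynomial Finset

namespace Fermat.Agent.Cor.Thue

theorem natDegree_hasseDeriv_lt {U : ℤ[X]} {n : ℕ} (hU : U.natDegree < n) (k : ℕ) :
    (hasseDeriv k U).natDegree < n :=
  ((natDegree_hasseDeriv_le U k).trans (Nat.sub_le _ _)).trans_lt hU

theorem cast_le_two_pow {i n : ℕ} (hi : i ≤ n) (k : ℕ) : ((i.choose k : ℕ) : ℝ) ≤ 2 ^ n :=
  calc ((i.choose k : ℕ) : ℝ) ≤ ((2 ^ i : ℕ) : ℝ) := by exact_mod_cast Nat.choose_le_two_pow _ _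
    _ = 2 ^ i := by push_cast; rfl
    _ ≤ 2 ^ n := pow_le_pow_right₀ (by norm_num) hi

theorem natCast_le_two_pow (n : ℕ) : (n : ℝ) ≤ 2 ^ n := by
  have h : n ≤ 2 ^ n := Nat.lt_two_pow_self.le
  exact_mod_cast h

/-- The size of the derivatives. -/
theorem abs_aeval_le {U : ℤ[X]} {n : ℕ} (hU : U.natDegree < n) {B : ℝ} (hB0 : 0 ≤ B)
    (hB : ∀ i, (|(U.coeff i : ℝ)|) ≤ B) {x Y : ℝ} (hx : |x| ≤ Y) (hY : 1 ≤ Y) (k : ℕ) :
    |aeval x (hasseDeriv k U)| ≤ (4 * Y) ^ n * B := by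
  rw [aeval_hasseDeriv hU]
  have hterm : ∀ i ∈ range n, |(i.choose k : ℝ) * (U.coeff i : ℝ) * x ^ (i - k)|
      ≤ 2 ^ n * B * Y ^ n := by
    intro i hi
    rw [mem_range] at hi
    rw [abs_mul, abs_mul, abs_pow, Nat.abs_cast]
    have h1 : |x| ^ (i - k) ≤ Y ^ n :=
      (pow_le_pow_left₀ (abs_nonneg _) hx _).trans (pow_le_pow_right₀ hY (by omega))
    exact mul_le_mul (mul_le_mul (cast_le_two_pow hi.le k) (hB i) (abs_nonneg _) (by positivity))
      h1 (by positivity) (by positivity)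
  refine (abs_sum_le_sum_abs _ _).trans ((sum_le_sum hterm).trans ?_)
  rw [sum_const, card_range, nsmul_eq_mul]
  have h2 : (4 * Y) ^ n * B = 2 ^ n * (2 ^ n * B * Y ^ n) := by
    rw [mul_pow, show (4 : ℝ) = 2 * 2 by norm_num, mul_pow]
    ring
  rw [h2]
  exact mul_le_mul_of_nonneg_right (natCast_le_two_pow n) (by positivity)

/-- Taylor's formula for the derivatives. -/
theorem aeval_taylor {U : ℤ[X]} {n : ℕ} (hU : U.natDegree < n) (k : ℕ) (x α : ℝ) :
    aeval x (hasseDeriv k U) =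
      ∑ i ∈ range n, ((i + k).choose i : ℝ) * aeval α (hasseDeriv (i + k) U) * (x - α) ^ i := by
  have h5 : ∀ (j : ℕ) (y : ℝ), aeval y (hasseDeriv j U)
      = (hasseDeriv j (U.map (Int.castRingHom ℝ))).eval y := by
    intro j y
    rw [hasseDeriv_map', eval_map, aeval_def]
    rfl
  rw [h5]
  set g := hasseDeriv k (U.map (Int.castRingHom ℝ)) with hg
  have h6 : g.eval x = (taylor α g).eval (x - α) := by
    rw [taylor_eval, sub_add_cancel]
  have h7 : (taylor α g).natDegree < n := by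
    rw [natDegree_taylor, hg]
    refine (natDegree_hasseDeriv_le _ _).trans_lt (lt_of_le_of_lt (Nat.sub_le _ _) ?_)
    exact lt_of_le_of_lt natDegree_map_le hU
  rw [h6, eval_eq_sum_range' h7]
  refine sum_congr rfl fun i _ => ?_
  rw [taylor_coeff, h5, hg]
  have h8 := LinearMap.congr_fun (hasseDeriv_comp (R := ℝ) i k) (U.map (Int.castRingHom ℝ))
  rw [LinearMap.comp_apply] at h8
  rw [h8, LinearMap.smul_apply, eval_smul, nsmul_eq_mul]

/-- The derivatives of `P - α Q` are small near `α`. -/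
theorem abs_diff_le {P Q : ℤ[X]} {n : ℕ} (hP : P.natDegree < n) (hQ : Q.natDegree < n) {B : ℝ}
    (hB0 : 0 ≤ B) (hBP : ∀ i, (|(P.coeff i : ℝ)|) ≤ B) (hBQ : ∀ i, (|(Q.coeff i : ℝ)|) ≤ B)
    {α Y : ℝ} (hY : 1 + |α| ≤ Y) {h : ℕ}
    (hv : ∀ k < h, aeval α (hasseDeriv k P) - α * aeval α (hasseDeriv k Q) = 0) {x : ℝ}
    (hx : |x - α| ≤ 1) {k : ℕ} :
    |aeval x (hasseDeriv k P) - α * aeval x (hasseDeriv k Q)|
      ≤ (16 * Y ^ 2) ^ n * B * |x - α| ^ (h - k) := by
  have hα0 := abs_nonneg α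
  have hY1 : 1 ≤ Y := by linarith
  have hn : 1 ≤ n := by omega
  rw [aeval_taylor hP k x α, aeval_taylor hQ k x α, mul_sum, ← sum_sub_distrib]
  have hterm : ∀ i ∈ range n,
      |((i + k).choose i : ℝ) * aeval α (hasseDeriv (i + k) P) * (x - α) ^ i
        - α * (((i + k).choose i : ℝ) * aeval α (hasseDeriv (i + k) Q) * (x - α) ^ i)|
      ≤ 2 ^ n * ((4 * Y) ^ n * B * Y) * |x - α| ^ (h - k) := by
    intro i _
    have h1 : ((i + k).choose i : ℝ) * aeval α (hasseDeriv (i + k) P) * (x - α) ^ i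
        - α * (((i + k).choose i : ℝ) * aeval α (hasseDeriv (i + k) Q) * (x - α) ^ i)
        = ((i + k).choose i : ℝ) * (aeval α (hasseDeriv (i + k) P)
          - α * aeval α (hasseDeriv (i + k) Q)) * (x - α) ^ i := by ring
    rw [h1]
    by_cases hik : i + k < h
    · rw [hv _ hik]
      simp only [mul_zero, zero_mul, abs_zero]
      positivity
    · by_cases hin : i + k ≤ n
      · rw [abs_mul, abs_mul, Nat.abs_cast, abs_pow]
        have h2 : |x - α| ^ i ≤ |x - α| ^ (h - k) :=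
          pow_le_pow_of_le_one (abs_nonneg _) hx (by omega)
        have hP1 := abs_aeval_le hP hB0 hBP (x := α) (Y := Y) (by linarith) hY1 (i + k)
        have hQ1 := abs_aeval_le hQ hB0 hBQ (x := α) (Y := Y) (by linarith) hY1 (i + k)
        have h3 : |aeval α (hasseDeriv (i + k) P) - α * aeval α (hasseDeriv (i + k) Q)|
            ≤ (4 * Y) ^ n * B * Y := by
          refine (abs_sub _ _).trans ?_
          rw [abs_mul]
          have h4 : |α| * |aeval α (hasseDeriv (i + k) Q)| ≤ |α| * ((4 * Y) ^ n * B) :=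
            mul_le_mul_of_nonneg_left hQ1 hα0
          have h5 : 0 ≤ (4 * Y) ^ n * B := by positivity
          nlinarith
        exact mul_le_mul (mul_le_mul (cast_le_two_pow hin i) h3 (abs_nonneg _) (by positivity))
          h2 (by positivity) (by positivity)
      · have hz : ∀ U : ℤ[X], U.natDegree < n → hasseDeriv (i + k) U = 0 := fun U hU =>
          hasseDeriv_eq_zero_of_lt_natDegree _ _ (by omega)
        rw [hz P hP, hz Q hQ]
        simp only [map_zero, mul_zero, sub_zero, zero_mul, abs_zero]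
        positivity
  refine (abs_sum_le_sum_abs _ _).trans ((sum_le_sum hterm).trans ?_)
  rw [sum_const, card_range, nsmul_eq_mul]
  have h6 : Y ≤ Y ^ n := by
    calc Y = Y ^ 1 := (pow_one Y).symm
      _ ≤ Y ^ n := pow_le_pow_right₀ hY1 hn
  have h7 : (16 * Y ^ 2) ^ n * B * |x - α| ^ (h - k)
      = 2 ^ n * (2 ^ n * ((4 * Y) ^ n * B * Y ^ n) * |x - α| ^ (h - k)) := by
    have : (16 * Y ^ 2) ^ n = 2 ^ n * (2 ^ n * ((4 * Y) ^ n * Y ^ n)) := by
      rw [← mul_pow, ← mul_pow, ← mul_pow]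
      congr 1
      ring
    rw [this]
    ring
  rw [h7]
  refine mul_le_mul (natCast_le_two_pow n) ?_ (by positivity) (by positivity)
  refine mul_le_mul_of_nonneg_right ?_ (by positivity)
  refine mul_le_mul_of_nonneg_left ?_ (by positivity)
  exact mul_le_mul_of_nonneg_left h6 (by positivity)

theorem abs_coeff_mul_le {U V : ℤ[X]} {n : ℕ} (hU : U.natDegree < n) {B D : ℝ} (hB0 : 0 ≤ B)
    (hD0 : 0 ≤ D) (hB : ∀ i, (|(U.coeff i : ℝ)|) ≤ B) (hD : ∀ i, (|(V.coeff i : ℝ)|) ≤ D)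
    (N : ℕ) : |((U * V).coeff N : ℝ)| ≤ n * (B * D) := by
  have h1 : (U * V).coeff N
      = ∑ i ∈ range n, (if i ≤ N then U.coeff i * V.coeff (N - i) else 0) := by
    conv_lhs => rw [as_sum_range' U n hU]
    rw [sum_mul, finsetSum_coeff]
    refine sum_congr rfl fun i _ => ?_
    rw [← C_mul_X_pow_eq_monomial, mul_assoc, coeff_C_mul, coeff_X_pow_mul']
    split_ifs <;> simp
  rw [h1, Int.cast_sum]
  refine (abs_sum_le_sum_abs _ _).trans ?_
  have h2 : ∀ i ∈ range n,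
      |(((if i ≤ N then U.coeff i * V.coeff (N - i) else 0 : ℤ)) : ℝ)| ≤ B * D := by
    intro i _
    split_ifs
    · rw [Int.cast_mul, abs_mul]
      exact mul_le_mul (hB _) (hD _) (abs_nonneg _) hB0
    · simp only [Int.cast_zero, abs_zero]
      positivity
  refine (sum_le_sum h2).trans ?_
  rw [sum_const, card_range, nsmul_eq_mul]

theorem abs_coeff_derivative_le {U : ℤ[X]} {n : ℕ} (hU : U.natDegree < n) {B : ℝ} (hB0 : 0 ≤ B)
    (hB : ∀ i, (|(U.coeff i : ℝ)|) ≤ B) (N : ℕ) : |((derivative U).coeff N : ℝ)| ≤ n * B := by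
  rw [coeff_derivative]
  by_cases hN : N + 1 < n
  · have h1 : |((U.coeff (N + 1) * ((N : ℤ) + 1) : ℤ) : ℝ)|
        = (|(U.coeff (N + 1) : ℝ)|) * (N + 1) := by
      rw [Int.cast_mul, abs_mul]
      congr 1
      push_cast
      exact abs_of_nonneg (by positivity)
    rw [h1, mul_comm]
    refine mul_le_mul ?_ (hB _) (abs_nonneg _) (by positivity)
    exact_mod_cast hN.le
  · rw [coeff_eq_zero_of_natDegree_lt (by omega)]
    simp only [zero_mul, Int.cast_zero, abs_zero]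
    positivity

theorem abs_wronskian_le {P Q : ℤ[X]} {n : ℕ} (hP : P.natDegree < n) (hQ : Q.natDegree < n)
    {B : ℝ} (hB0 : 0 ≤ B) (hBP : ∀ i, (|(P.coeff i : ℝ)|) ≤ B)
    (hBQ : ∀ i, (|(Q.coeff i : ℝ)|) ≤ B) (N : ℕ) :
    |((wronskian P Q).coeff N : ℝ)| ≤ 4 ^ n * B ^ 2 := by
  have hn : 1 ≤ n := by omega
  have hdeg : (derivative P).natDegree < n :=
    lt_of_le_of_lt (natDegree_derivative_le P) (by omega)
  have h1 := abs_coeff_mul_le hP hB0 (by positivity) hBP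
    (abs_coeff_derivative_le hQ hB0 hBQ) N
  have h2 := abs_coeff_mul_le hdeg (by positivity) hB0
    (abs_coeff_derivative_le hP hB0 hBP) hBQ N
  have h3 : ((wronskian P Q).coeff N : ℝ)
      = ((P * derivative Q).coeff N : ℝ) - ((derivative P * Q).coeff N : ℝ) := by
    rw [wronskian, coeff_sub]
    push_cast
    ring
  rw [h3]
  refine (abs_sub _ _).trans ((add_le_add h1 h2).trans ?_)
  have h4 : (2 * (n : ℝ)) ≤ 2 ^ n := by
    have h5 : 2 * n ≤ 2 ^ n := by
      obtain ⟨m, rfl⟩ : ∃ m, n = m + 1 := ⟨n - 1, by omega⟩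
      have h6 : m < 2 ^ m := Nat.lt_two_pow_self
      rw [pow_succ]
      omega
    exact_mod_cast h5
  have h5 : (2 * (n : ℝ)) ^ 2 ≤ 4 ^ n := by
    calc (2 * (n : ℝ)) ^ 2 ≤ (2 ^ n) ^ 2 := pow_le_pow_left₀ (by positivity) h4 2
      _ = 4 ^ n := by rw [← pow_mul, mul_comm, pow_mul]; norm_num
  have h6 : (0 : ℝ) ≤ (n : ℝ) ^ 2 * B ^ 2 := by positivity
  nlinarith [mul_le_mul_of_nonneg_right h5 (sq_nonneg B)]

/-- Values of integral polynomials at rational numbers. -/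
theorem exists_int {U : ℤ[X]} {n : ℕ} (hU : U.natDegree < n) (x : ℚ) :
    ∃ z : ℤ, (z : ℚ) = (x.den : ℚ) ^ n * aeval x U := by
  refine ⟨∑ i ∈ range n, U.coeff i * x.num ^ i * (x.den : ℤ) ^ (n - i), ?_⟩
  rw [aeval_eq_sum_range' hU, mul_sum]
  push_cast
  refine sum_congr rfl fun i hi => ?_
  rw [mem_range] at hi
  have h1 : (x.den : ℚ) ^ n = (x.den : ℚ) ^ (n - i) * (x.den : ℚ) ^ i := by
    rw [← pow_add]
    congr 1
    omega
  have h2 : (x.num : ℚ) ^ i = (x.den : ℚ) ^ i * x ^ i := by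
    rw [← mul_pow]
    congr 1
    exact x.den_mul_eq_num.symm
  rw [h1, h2, zsmul_eq_mul]
  ring

/-- The final numerical inequality. -/
theorem final_lt_one {L q μ K : ℝ} {E S u : ℕ} (hL : 2 ≤ L) (hK : 0 ≤ K) (hKL : K ≤ L)
    (hS : 2 ≤ S) (hμ : (E : ℝ) + S + 2 ≤ μ * (S - 1)) (hμ1 : 1 ≤ μ) (hu : S + 1 ≤ u)
    (hq : L ^ (S * u) ≤ q) (hq' : q < L ^ (S * (u + 1))) :
    L ^ (E * u) * q * (K ^ u * ((L ^ (-μ)) ^ (S * u - u) + q ^ (-μ))) < 1 := by
  have hL0 : 0 < L := by linarith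
  have hL1 : 1 ≤ L := by linarith
  have hq0 : 0 < q := lt_of_lt_of_le (by positivity) hq
  have hu' : (S : ℝ) + 1 ≤ u := by exact_mod_cast hu
  have hu0 : (0 : ℝ) < u := by
    have : (0 : ℝ) ≤ S := Nat.cast_nonneg S
    linarith
  have hKu : K ^ u ≤ L ^ u := pow_le_pow_left₀ hK hKL u
  have hinv : L ^ (-1 : ℝ) ≤ 1 / 2 := by
    rw [Real.rpow_neg_one, one_div]
    exact inv_anti₀ (by norm_num) hL
  have hsub : ((S * u - u : ℕ) : ℝ) = S * u - u := by
    rw [Nat.cast_sub (Nat.le_mul_of_pos_left u (by omega))]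
    push_cast
    ring
  -- first term
  have hA : L ^ (E * u) * q * (K ^ u * (L ^ (-μ)) ^ (S * u - u)) < 1 / 2 := by
    have h1 : L ^ (E * u) * q * (K ^ u * (L ^ (-μ)) ^ (S * u - u))
        < L ^ (E * u) * L ^ (S * (u + 1)) * (L ^ u * (L ^ (-μ)) ^ (S * u - u)) := by
      have h2 : 0 < (L ^ (-μ)) ^ (S * u - u) := by positivity
      calc L ^ (E * u) * q * (K ^ u * (L ^ (-μ)) ^ (S * u - u))
          ≤ L ^ (E * u) * q * (L ^ u * (L ^ (-μ)) ^ (S * u - u)) := by
            refine mul_le_mul_of_nonneg_left ?_ (by positivity)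
            exact mul_le_mul_of_nonneg_right hKu h2.le
        _ < L ^ (E * u) * L ^ (S * (u + 1)) * (L ^ u * (L ^ (-μ)) ^ (S * u - u)) := by
            refine mul_lt_mul_of_pos_right ?_ (by positivity)
            exact mul_lt_mul_of_pos_left hq' (by positivity)
    refine h1.trans_le (le_trans (le_of_eq ?_) (le_trans (Real.rpow_le_rpow_of_exponent_le hL1
      (show ((E : ℝ) * u + S * (u + 1) + (u + (-μ) * (S * u - u))) ≤ -1 from ?_)) hinv))
    · rw [Real.rpow_add hL0, Real.rpow_add hL0, Real.rpow_add hL0, Real.rpow_mul hL0.le (-μ),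
        ← hsub, Real.rpow_natCast, Real.rpow_natCast]
      have e1 : L ^ ((E : ℝ) * u) = L ^ (E * u) := by
        rw [← Real.rpow_natCast]; push_cast; rfl
      have e2 : L ^ ((S : ℝ) * (u + 1)) = L ^ (S * (u + 1)) := by
        rw [← Real.rpow_natCast]; push_cast; rfl
      rw [e1, e2]
    · nlinarith [mul_le_mul_of_nonneg_right hμ hu0.le]
  -- second term
  have hB : L ^ (E * u) * q * (K ^ u * q ^ (-μ)) ≤ 1 / 2 := by
    have h1 : q * q ^ (-μ) ≤ L ^ ((S : ℝ) * u * (1 - μ)) := by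
      have h2 : q * q ^ (-μ) = q ^ (1 - μ) := by
        rw [sub_eq_add_neg, Real.rpow_add hq0, Real.rpow_one]
      rw [h2, Real.rpow_mul hL0.le]
      have h3 : L ^ ((S : ℝ) * u) = L ^ (S * u) := by
        rw [← Real.rpow_natCast]; push_cast; rfl
      rw [h3]
      exact Real.rpow_le_rpow_of_nonpos (by positivity) hq (by linarith)
    have h4 : L ^ (E * u) * q * (K ^ u * q ^ (-μ))
        ≤ L ^ (E * u) * (L ^ u * L ^ ((S : ℝ) * u * (1 - μ))) := by
      calc L ^ (E * u) * q * (K ^ u * q ^ (-μ)) = L ^ (E * u) * (K ^ u * (q * q ^ (-μ))) := by ring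
        _ ≤ _ := by
            refine mul_le_mul_of_nonneg_left ?_ (by positivity)
            exact mul_le_mul hKu h1 (by positivity) (by positivity)
    refine h4.trans (le_trans (le_of_eq ?_) (le_trans (Real.rpow_le_rpow_of_exponent_le hL1
      (show ((E : ℝ) * u + (u + (S : ℝ) * u * (1 - μ))) ≤ -1 from ?_)) hinv))
    · rw [Real.rpow_add hL0, Real.rpow_add hL0, Real.rpow_natCast]
      have e1 : L ^ ((E : ℝ) * u) = L ^ (E * u) := by
        rw [← Real.rpow_natCast]; push_cast; rfl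
      rw [e1]
    · nlinarith [mul_le_mul_of_nonneg_right hμ hu0.le]
  calc L ^ (E * u) * q * (K ^ u * ((L ^ (-μ)) ^ (S * u - u) + q ^ (-μ)))
      = L ^ (E * u) * q * (K ^ u * (L ^ (-μ)) ^ (S * u - u))
        + L ^ (E * u) * q * (K ^ u * q ^ (-μ)) := by ring
    _ < 1 / 2 + 1 / 2 := add_lt_add_of_lt_of_le hA hB
    _ = 1 := by norm_num

end Fermat.Agent.Cor.Thue
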