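import Fermat.Agent.Corollaries.Thue.Bounds

/-!
# Thue's theorem, IV

**Thue 1909**: if `α` is a real algebraic number of degree `d` and `μ > d / 2 + 1`, then
`|α - p / q| < q ^ (-μ)` has only finitely many solutions.
-/

open Polynomial Finset

namespace Fermat.Agent.Cor.Thue

theorem finite_den_le (α R : ℝ) (N : ℕ) : {x : ℚ | x.den ≤ N ∧ |α - x| < R}.Finite := by
  obtain ⟨M, hM⟩ := exists_nat_ge ((|α| + R) * N)
  refine Set.Finite.subset (((Set.finite_Icc (-(M : ℤ)) M).prod (Set.finite_Iic N)).image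
    (fun p : ℤ × ℕ => ((p.1 : ℚ) / (p.2 : ℚ)))) ?_
  rintro x ⟨hx1, hx2⟩
  refine ⟨(x.num, x.den), ⟨?_, hx1⟩, Rat.num_div_den x⟩
  have h1 : |(x : ℝ)| ≤ |α| + R := by
    have h2 : |(x : ℝ)| ≤ |α| + |α - x| := by
      calc |(x : ℝ)| = |α - (α - x)| := by ring_nf
        _ ≤ |α| + |α - x| := abs_sub _ _
    linarith
  have h3 : (|x.num| : ℝ) = |(x : ℝ)| * x.den := by
    have h4 : ((x.num : ℚ) : ℝ) = ((x * x.den : ℚ) : ℝ) := by rw [Rat.mul_den_eq_num]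
    push_cast at h4
    rw [h4, abs_mul, Nat.abs_cast]
  have h5 : (|x.num| : ℝ) ≤ M := by
    rw [h3]
    refine le_trans ?_ hM
    have h6 : (x.den : ℝ) ≤ N := by exact_mod_cast hx1
    exact mul_le_mul h1 h6 (by positivity) ((abs_nonneg _).trans h1)
  have h7 : |x.num| ≤ (M : ℤ) := by exact_mod_cast h5
  exact abs_le.mp h7

theorem exists_den_gt {α : ℝ} {A : Set ℚ} (hA : A.Infinite) {R : ℝ} (hR : ∀ x ∈ A, |α - x| < R)
    (N : ℕ) : ∃ x ∈ A, N < x.den := by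
  by_contra hcon
  push Not at hcon
  exact hA ((finite_den_le α R N).subset fun x hx => ⟨hcon x hx, hR x hx⟩)

/-- The choice of the parameter. -/
theorem exists_param {d μ : ℝ} (hμ : d / 2 + 1 < μ) :
    ∃ s : ℕ, 1 ≤ s ∧ (s : ℝ) * (s + 1) * d + 2 * s ^ 2 + 2 ≤ μ * (2 * s ^ 2 - 1) := by
  have hδ : 0 < 2 * μ - d - 2 := by linarith
  obtain ⟨s, hs⟩ := exists_nat_ge ((d + μ + 2) / (2 * μ - d - 2))
  refine ⟨s + 1, by omega, ?_⟩
  rw [div_le_iff₀ hδ] at hs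
  have hs0 : (0 : ℝ) ≤ s := Nat.cast_nonneg s
  push_cast
  set t : ℝ := (s : ℝ) + 1 with ht
  have ht1 : 1 ≤ t := by linarith
  have h1 : d + μ + 2 ≤ t * (2 * μ - d - 2) := by nlinarith
  have h2 : (d + μ + 2) * t ≤ t * (2 * μ - d - 2) * t := mul_le_mul_of_nonneg_right h1 (by linarith)
  nlinarith

/-- **Thue's theorem for algebraic integers.** -/
theorem thue_integer {f : ℤ[X]} (hf : f.Monic) (hirr : Irreducible (f.map (Int.castRingHom ℚ)))
    (hdeg : 2 ≤ f.natDegree) {α : ℝ} (hα : aeval α f = 0) {μ : ℝ}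
    (hμ : (f.natDegree : ℝ) / 2 + 1 < μ) :
    {x : ℚ | |α - x| < (x.den : ℝ) ^ (-μ)}.Finite := by
  by_contra hinf
  set A : Set ℚ := {x : ℚ | |α - x| < (x.den : ℝ) ^ (-μ)} with hAdef
  have hμ1 : 1 ≤ μ := by
    have : (0 : ℝ) ≤ (f.natDegree : ℝ) := Nat.cast_nonneg _
    linarith
  have hA1 : ∀ x ∈ A, |α - x| < 1 := by
    intro x hx
    have h1 : (1 : ℝ) ≤ x.den := by exact_mod_cast x.den_pos
    exact lt_of_lt_of_le hx (Real.rpow_le_one_of_one_le_of_nonpos h1 (by linarith))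
  obtain ⟨e, he⟩ : ∃ e, f.natDegree = e + 1 := ⟨f.natDegree - 1, by omega⟩
  obtain ⟨s, hs, hsμ⟩ := exists_param hμ
  -- bound for the coefficients
  obtain ⟨H, hH⟩ : ∃ H : ℤ, ∀ i, |f.coeff i| ≤ H := by
    refine ⟨∑ i ∈ range (f.natDegree + 1), |f.coeff i|, fun i => ?_⟩
    by_cases hi : i ∈ range (f.natDegree + 1)
    · exact single_le_sum (f := fun i => |f.coeff i|) (fun j _ => abs_nonneg _) hi
    · rw [mem_range, not_lt] at hi
      rw [coeff_eq_zero_of_natDegree_lt (by omega), abs_zero]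
      exact sum_nonneg fun j _ => abs_nonneg _
  have hH0 : 0 ≤ H := (abs_nonneg _).trans (hH 0)
  have hH0' : (0 : ℝ) ≤ H := by exact_mod_cast hH0
  -- constants
  set Y : ℝ := 2 + |α| with hY
  have hα0 := abs_nonneg α
  have hY1 : 1 ≤ Y := by linarith
  set E : ℕ := s * (s + 1) * (e + 1) with hE
  set K₁ : ℝ := (4 * (1 + (H : ℝ))) ^ (E * s) with hK₁
  set K₂ : ℝ := (16 * Y ^ 2) ^ E * K₁ with hK₂
  set K₃ : ℝ := 4 ^ E * K₁ ^ 2 with hK₃
  have hK₁0 : 0 < K₁ := by positivity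
  have hK₂0 : 0 < K₂ := by positivity
  have hK₃0 : 0 < K₃ := by positivity
  -- the first solution
  obtain ⟨N₁, hN₁⟩ := exists_nat_ge (max 2 (max K₂ K₃))
  obtain ⟨x₁, hx₁A, hx₁⟩ := exists_den_gt hinf hA1 N₁
  set L : ℝ := (x₁.den : ℝ) with hL
  have hNL : (N₁ : ℝ) < L := by
    rw [hL]
    exact_mod_cast hx₁
  have hL2 : 2 ≤ L := (le_max_left _ _).trans (hN₁.trans hNL.le)
  have hLK₂ : K₂ ≤ L := (le_max_left _ _).trans ((le_max_right _ _).trans (hN₁.trans hNL.le))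
  have hLK₃ : K₃ < L :=
    lt_of_le_of_lt ((le_max_right _ _).trans ((le_max_right _ _).trans hN₁)) hNL
  -- the second solution
  set S : ℕ := 2 * s ^ 2 with hS
  have hS2 : 2 ≤ S := by
    rw [hS]
    have : 1 ≤ s ^ 2 := Nat.one_le_pow _ _ hs
    omega
  set b : ℕ := x₁.den ^ S with hb
  have hden2 : 2 ≤ x₁.den := by
    have : (2 : ℝ) ≤ ((x₁.den : ℕ) : ℝ) := hL2
    exact_mod_cast this
  have hb1 : 1 < b := Nat.one_lt_pow (by omega) (by omega)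
  obtain ⟨x₂, hx₂A, hx₂⟩ := exists_den_gt hinf hA1 (b ^ (S + 1))
  set u : ℕ := Nat.log b x₂.den with hu
  have hSu : S + 1 ≤ u := Nat.le_log_of_pow_le hb1 hx₂.le
  have hbu : b ^ u ≤ x₂.den := Nat.pow_log_le_self b x₂.den_nz
  have hbu' : x₂.den < b ^ (u + 1) := Nat.lt_pow_succ_log_self hb1 _
  have hu0 : 0 < u := by omega
  have hq : L ^ (S * u) ≤ (x₂.den : ℝ) := by
    have h1 : ((b ^ u : ℕ) : ℝ) ≤ (x₂.den : ℝ) := Nat.cast_le.mpr hbu
    rw [hb] at h1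
    push_cast at h1
    rwa [pow_mul]
  have hq' : (x₂.den : ℝ) < L ^ (S * (u + 1)) := by
    have h1 : (x₂.den : ℝ) < ((b ^ (u + 1) : ℕ) : ℝ) := Nat.cast_lt.mpr hbu'
    rw [hb] at h1
    push_cast at h1
    rwa [pow_mul]
  -- the auxiliary polynomials
  obtain ⟨P, Q, h0, hP, hQ, hBP, hBQ, hv⟩ := exists_small (n := E * u) (h := S * u) (s := s)
    hf he hα hH (by positivity) (by rw [hE, hS]; ring)
  have hB : ((4 * (1 + (H : ℝ))) ^ (E * u * s) : ℝ) = K₁ ^ u := by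
    rw [hK₁, ← pow_mul]
    congr 1
    ring
  rw [hB] at hBP hBQ
  have hFdeg : (f.map (Int.castRingHom ℚ)).natDegree = f.natDegree :=
    natDegree_map_eq_of_injective Int.cast_injective f
  have hFα : aeval α (f.map (Int.castRingHom ℚ)) = 0 := by
    rw [show Int.castRingHom ℚ = algebraMap ℤ ℚ from rfl, aeval_map_algebraMap]
    exact hα
  have hW : wronskian P Q ≠ 0 := by
    refine wronskian_ne_zero hirr (by rw [hFdeg]; exact hdeg) hFα h0 hP hQ ?_ hv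
    rw [hFdeg, he, hE, hS]
    have : s * (s + 1) ≤ 2 * s ^ 2 := by nlinarith
    calc s * (s + 1) * (e + 1) * u = (s * (s + 1)) * ((e + 1) * u) := by ring
      _ ≤ (2 * s ^ 2) * ((e + 1) * u) := Nat.mul_le_mul_right _ this
      _ = (e + 1) * (2 * s ^ 2 * u) := by ring
  have hlc : ((|(wronskian P Q).leadingCoeff| : ℤ) : ℝ) < (x₁.den : ℝ) ^ u := by
    have h1 := abs_wronskian_le hP hQ (by positivity) hBP hBQ (wronskian P Q).natDegree
    have h2 : (4 : ℝ) ^ (E * u) * (K₁ ^ u) ^ 2 = K₃ ^ u := by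
      rw [hK₃, mul_pow (4 ^ E), pow_mul 4 E u, ← pow_mul K₁ u 2, ← pow_mul K₁ 2 u, mul_comm u 2]
    rw [h2] at h1
    calc ((|(wronskian P Q).leadingCoeff| : ℤ) : ℝ)
        = |((wronskian P Q).coeff (wronskian P Q).natDegree : ℝ)| := by
          rw [Int.cast_abs]; rfl
      _ ≤ K₃ ^ u := h1
      _ < (x₁.den : ℝ) ^ u := pow_lt_pow_left₀ hLK₃ hK₃0.le (by omega)
  obtain ⟨k, hku, hk⟩ := exists_ne_zero hW x₁ x₂ u hlc
  -- the integer
  obtain ⟨z₁, hz₁⟩ := exists_int (natDegree_hasseDeriv_lt hP k) x₁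
  obtain ⟨z₂, hz₂⟩ := exists_int (natDegree_hasseDeriv_lt hQ k) x₁
  set V : ℚ := aeval x₁ (hasseDeriv k P) - x₂ * aeval x₁ (hasseDeriv k Q) with hV
  have hint : ((z₁ * x₂.den - x₂.num * z₂ : ℤ) : ℚ) = (x₁.den : ℚ) ^ (E * u) * x₂.den * V := by
    have h2 : (x₂.num : ℚ) = x₂ * x₂.den := (Rat.mul_den_eq_num x₂).symm
    rw [hV]
    push_cast
    rw [hz₁, hz₂]
    rw [h2]
    ring
  have hden₂ : (x₂.den : ℚ) ≠ 0 := by exact_mod_cast x₂.den_nz
  have hden₁ : (x₁.den : ℚ) ≠ 0 := by exact_mod_cast x₁.den_nz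
  have hne : (z₁ * x₂.den - x₂.num * z₂ : ℤ) ≠ 0 := by
    intro h3
    rw [h3, Int.cast_zero] at hint
    exact (mul_ne_zero (mul_ne_zero (pow_ne_zero _ hden₁) hden₂) hk) hint.symm
  have hone : (1 : ℝ) ≤ L ^ (E * u) * x₂.den * |(V : ℝ)| := by
    have h3 : (1 : ℤ) ≤ |z₁ * x₂.den - x₂.num * z₂| := Int.one_le_abs hne
    have h4 : ((|z₁ * x₂.den - x₂.num * z₂| : ℤ) : ℝ) = L ^ (E * u) * x₂.den * |(V : ℝ)| := by
      have h5 : |(((z₁ * x₂.den - x₂.num * z₂ : ℤ) : ℚ) : ℝ)|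
          = |(((x₁.den : ℚ) ^ (E * u) * x₂.den * V : ℚ) : ℝ)| := by rw [hint]
      rw [Int.cast_abs]
      have h6 : (((z₁ * x₂.den - x₂.num * z₂ : ℤ) : ℚ) : ℝ)
          = ((z₁ * x₂.den - x₂.num * z₂ : ℤ) : ℝ) := by push_cast; rfl
      rw [h6] at h5
      rw [h5]
      push_cast
      rw [abs_mul, abs_of_nonneg (by positivity : (0 : ℝ) ≤ (x₁.den : ℝ) ^ (E * u) * x₂.den)]
    rw [← h4]
    exact_mod_cast h3
  -- the upper bound
  have hcast : ∀ U : ℤ[X], (((aeval x₁ U : ℚ)) : ℝ) = aeval (x₁ : ℝ) U := by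
    intro U
    have h3 := aeval_algebraMap_apply (A := ℚ) ℝ x₁ U
    rw [eq_ratCast, eq_ratCast] at h3
    exact h3.symm
  have hVr : (V : ℝ) = (aeval (x₁ : ℝ) (hasseDeriv k P) - α * aeval (x₁ : ℝ) (hasseDeriv k Q))
      + (α - x₂) * aeval (x₁ : ℝ) (hasseDeriv k Q) := by
    rw [hV]
    push_cast
    rw [hcast, hcast]
    ring
  have hx₁α : |(x₁ : ℝ) - α| ≤ 1 := by
    rw [abs_sub_comm]
    exact (hA1 x₁ hx₁A).le
  have hb1' := abs_diff_le hP hQ (B := K₁ ^ u) (by positivity) hBP hBQ (α := α) (Y := Y)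
    (by rw [hY]; linarith) hv hx₁α (k := k)
  have hb2' := abs_aeval_le hQ (B := K₁ ^ u) (by positivity) hBQ (x := (x₁ : ℝ)) (Y := Y)
    (by
      calc |(x₁ : ℝ)| = |((x₁ : ℝ) - α) + α| := by ring_nf
        _ ≤ |(x₁ : ℝ) - α| + |α| := abs_add_le _ _
        _ ≤ Y := by rw [hY]; linarith) hY1 k
  have hK₂u : (16 * Y ^ 2) ^ (E * u) * K₁ ^ u = K₂ ^ u := by
    rw [hK₂, mul_pow ((16 * Y ^ 2) ^ E), pow_mul (16 * Y ^ 2) E u]
  rw [hK₂u] at hb1'
  have hb2'' : |aeval (x₁ : ℝ) (hasseDeriv k Q)| ≤ K₂ ^ u := by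
    refine hb2'.trans ?_
    rw [← hK₂u]
    refine mul_le_mul_of_nonneg_right ?_ (by positivity)
    refine pow_le_pow_left₀ (by positivity) ?_ _
    nlinarith
  have hpowA : |(x₁ : ℝ) - α| ^ (S * u - k) ≤ (L ^ (-μ)) ^ (S * u - u) := by
    have h3 : |(x₁ : ℝ) - α| ≤ L ^ (-μ) := by
      rw [abs_sub_comm]
      exact (le_of_lt hx₁A)
    refine le_trans (pow_le_pow_of_le_one (abs_nonneg _) hx₁α
      (show S * u - u ≤ S * u - k by omega)) ?_
    exact pow_le_pow_left₀ (abs_nonneg _) h3 _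
  have hVbound : |(V : ℝ)| ≤ K₂ ^ u * ((L ^ (-μ)) ^ (S * u - u) + (x₂.den : ℝ) ^ (-μ)) := by
    rw [hVr]
    refine (abs_add_le _ _).trans ?_
    rw [mul_add]
    refine add_le_add (hb1'.trans ?_) ?_
    · exact mul_le_mul_of_nonneg_left hpowA (by positivity)
    · rw [abs_mul, mul_comm]
      exact mul_le_mul hb2'' (le_of_lt hx₂A) (abs_nonneg _) (by positivity)
  have hfinal := final_lt_one (L := L) (q := (x₂.den : ℝ)) (μ := μ) (K := K₂) (E := E) (S := S)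
    (u := u) hL2 hK₂0.le hLK₂ hS2 (by
      rw [hE, hS]
      rw [he] at hsμ
      push_cast at hsμ ⊢
      exact hsμ) hμ1 hSu hq hq'
  have : L ^ (E * u) * x₂.den * |(V : ℝ)| < 1 :=
    lt_of_le_of_lt (mul_le_mul_of_nonneg_left hVbound (by positivity)) hfinal
  linarith

end Fermat.Agent.Cor.Thue
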