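import Mathlib

/-!
# Thue's theorem, I: the auxiliary polynomials

`f` is a monic integral polynomial of degree `e + 1`, `α` a real root of `f`.  Siegel's lemma gives
integral polynomials `P`, `Q`, not both `0`, with small coefficients such that `P - α Q` vanishes
to a high order at `α`.
-/

open Polynomial Finset

namespace Fermat.Agent.Cor.Thue

/-- The coordinates of the powers of a root of a monic polynomial of degree `e + 1`. -/
def pw (f : ℤ[X]) (e : ℕ) : ℕ → ℕ → ℤ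
  | 0, 0 => 1
  | 0, _ + 1 => 0
  | j + 1, 0 => -(pw f e j e * f.coeff 0)
  | j + 1, l + 1 => pw f e j l - pw f e j e * f.coeff (l + 1)

theorem sum_pw {f : ℤ[X]} {e : ℕ} (hf : f.Monic) (hd : f.natDegree = e + 1) {α : ℝ}
    (hα : aeval α f = 0) (j : ℕ) :
    ∑ l ∈ range (e + 1), (pw f e j l : ℝ) * α ^ l = α ^ j := by
  have key : ∑ l ∈ range e, (f.coeff (l + 1) : ℝ) * α ^ (l + 1) + (f.coeff 0 : ℝ)
      + α ^ (e + 1) = 0 := by
    rw [← hα, aeval_eq_sum_range, hd, sum_range_succ, sum_range_succ']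
    have h1 : f.coeff (e + 1) = 1 := by
      rw [← hd]; exact hf
    simp [h1, zsmul_eq_mul]
  induction j with
  | zero =>
    rw [sum_range_succ']
    simp [pw]
  | succ j ih =>
    rw [sum_range_succ] at ih
    rw [sum_range_succ']
    have h2 : ∑ l ∈ range e, ((pw f e (j + 1) (l + 1) : ℤ) : ℝ) * α ^ (l + 1)
        = α * ∑ l ∈ range e, (pw f e j l : ℝ) * α ^ l
          - (pw f e j e : ℝ) * ∑ l ∈ range e, (f.coeff (l + 1) : ℝ) * α ^ (l + 1) := by
      rw [mul_sum, mul_sum, ← sum_sub_distrib]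
      refine sum_congr rfl fun l _ => ?_
      simp only [pw]
      push_cast
      ring
    rw [h2]
    have h3 : ((pw f e (j + 1) 0 : ℤ) : ℝ) = -((pw f e j e : ℝ) * (f.coeff 0 : ℝ)) := by
      simp only [pw]
      push_cast
      ring
    rw [h3]
    linear_combination α * ih - (pw f e j e : ℝ) * key

theorem abs_pw_le {f : ℤ[X]} {e : ℕ} {H : ℤ} (hH : ∀ i, |f.coeff i| ≤ H) (j l : ℕ) :
    |pw f e j l| ≤ (1 + H) ^ j := by
  have hH0 : 0 ≤ H := (abs_nonneg _).trans (hH 0)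
  induction j generalizing l with
  | zero =>
    cases l <;> simp [pw]
  | succ j ih =>
    have hb : |pw f e j e * f.coeff l| ≤ (1 + H) ^ j * H := by
      rw [abs_mul]
      exact mul_le_mul (ih e) (hH l) (abs_nonneg _) (by positivity)
    cases l with
    | zero =>
      simp only [pw, abs_neg]
      refine hb.trans ?_
      rw [pow_succ]
      have : (0 : ℤ) ≤ (1 + H) ^ j := by positivity
      nlinarith
    | succ l =>
      simp only [pw]
      refine (abs_sub _ _).trans ?_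
      refine (add_le_add (ih l) hb).trans ?_
      rw [pow_succ]
      nlinarith

theorem aeval_hasseDeriv {U : ℤ[X]} {n : ℕ} (hU : U.natDegree < n) (k : ℕ) (x : ℝ) :
    aeval x (hasseDeriv k U) =
      ∑ i ∈ range n, (i.choose k : ℝ) * (U.coeff i : ℝ) * x ^ (i - k) := by
  rw [hasseDeriv_apply, sum_over_range' U (by simp) n hU, map_sum]
  refine sum_congr rfl fun i _ => ?_
  rw [aeval_monomial]
  simp

attribute [local instance] Matrix.seminormedAddCommGroup

open Matrix in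
theorem exists_small {f : ℤ[X]} {e : ℕ} (hf : f.Monic) (hd : f.natDegree = e + 1) {α : ℝ}
    (hα : aeval α f = 0) {H : ℤ} (hH : ∀ i, |f.coeff i| ≤ H) {n h s : ℕ} (h0 : 0 < h)
    (hn : 2 * n * s = (s + 1) * (h * (e + 1))) :
    ∃ P Q : ℤ[X], (P ≠ 0 ∨ Q ≠ 0) ∧ P.natDegree < n ∧ Q.natDegree < n ∧
      (∀ i, (|P.coeff i| : ℝ) ≤ (4 * (1 + H)) ^ (n * s)) ∧
      (∀ i, (|Q.coeff i| : ℝ) ≤ (4 * (1 + H)) ^ (n * s)) ∧
      ∀ k < h, aeval α (hasseDeriv k P) - α * aeval α (hasseDeriv k Q) = 0 := by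
  have hH0 : 0 ≤ H := (abs_nonneg _).trans (hH 0)
  have hH0' : (0 : ℝ) ≤ H := by exact_mod_cast hH0
  have hn0 : 0 < n := by
    rcases Nat.eq_zero_or_pos n with h1 | h1
    · rw [h1] at hn
      simp at hn
      omega
    · exact h1
  let A : Matrix (Fin h × Fin (e + 1)) (Fin n ⊕ Fin n) ℤ := fun kl i =>
    Sum.elim (fun i : Fin n => ((i : ℕ).choose kl.1 : ℤ) * pw f e ((i : ℕ) - kl.1) kl.2)
      (fun i : Fin n => -(((i : ℕ).choose kl.1 : ℤ) * pw f e ((i : ℕ) - kl.1 + 1) kl.2)) i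
  have hc1 : Fintype.card (Fin h × Fin (e + 1)) = h * (e + 1) := by simp
  have hc2 : Fintype.card (Fin n ⊕ Fin n) = 2 * n := by simp; ring
  have hlt : h * (e + 1) < 2 * n := by
    by_contra hcon
    push Not at hcon
    have h1 : 2 * n * s ≤ h * (e + 1) * s := Nat.mul_le_mul_right _ hcon
    have h2 : 0 < h * (e + 1) := by positivity
    nlinarith
  obtain ⟨t, ht0, ht1, ht2⟩ := Int.Matrix.exists_ne_zero_int_vec_norm_le A
    (by rw [hc1, hc2]; exact hlt) (by rw [hc1]; positivity)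
  rw [hc1, hc2] at ht2
  have hexp : ((h * (e + 1) : ℕ) : ℝ) / (((2 * n : ℕ) : ℝ) - ((h * (e + 1) : ℕ) : ℝ)) = (s : ℝ) := by
    have h1 : (0 : ℝ) < ((2 * n : ℕ) : ℝ) - ((h * (e + 1) : ℕ) : ℝ) := by
      rw [sub_pos]; exact_mod_cast hlt
    rw [div_eq_iff h1.ne']
    have h2 : (((2 * n * s : ℕ)) : ℝ) = (((s + 1) * (h * (e + 1)) : ℕ) : ℝ) := by rw [hn]
    push_cast at h2 ⊢
    linarith
  rw [hexp, Real.rpow_natCast] at ht2
  have hA : ‖A‖ ≤ (2 * (1 + (H : ℝ))) ^ n := by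
    rw [Matrix.norm_le_iff (by positivity)]
    have hbin : ∀ (i : Fin n) (k : ℕ), (((i : ℕ).choose k : ℕ) : ℝ) ≤ 2 ^ (n - 1) := by
      intro i k
      calc (((i : ℕ).choose k : ℕ) : ℝ) ≤ ((2 ^ (i : ℕ) : ℕ) : ℝ) := by
            exact_mod_cast Nat.choose_le_two_pow _ _
        _ = 2 ^ (i : ℕ) := by push_cast; rfl
        _ ≤ 2 ^ (n - 1) := pow_le_pow_right₀ (by norm_num) (by omega)
    have hpw : ∀ (j l : ℕ), j ≤ n → (|pw f e j l| : ℝ) ≤ (1 + (H : ℝ)) ^ n := by
      intro j l hj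
      calc (|pw f e j l| : ℝ) = ((|pw f e j l| : ℤ) : ℝ) := by push_cast; rfl
        _ ≤ (((1 + H) ^ j : ℤ) : ℝ) := by exact_mod_cast abs_pw_le hH j l
        _ = (1 + (H : ℝ)) ^ j := by push_cast; rfl
        _ ≤ (1 + (H : ℝ)) ^ n := pow_le_pow_right₀ (by linarith) hj
    have hfin : ∀ (i : Fin n) (k j l : ℕ), j ≤ n →
        ((i : ℕ).choose k : ℝ) * (|pw f e j l| : ℝ) ≤ (2 * (1 + (H : ℝ))) ^ n := by
      intro i k j l hj
      rw [mul_pow]
      refine mul_le_mul ((hbin i k).trans (pow_le_pow_right₀ (by norm_num) (by omega)))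
        (hpw j l hj) (abs_nonneg _) (by positivity)
    rintro ⟨k, l⟩ (i | i)
    · simp only [A, Sum.elim_inl, Int.norm_eq_abs, Int.cast_mul, abs_mul, Int.cast_natCast,
        Nat.abs_cast]
      exact hfin i k _ l (by omega)
    · simp only [A, Sum.elim_inr, Int.norm_eq_abs, Int.cast_neg, Int.cast_mul, abs_neg, abs_mul,
        Int.cast_natCast, Nat.abs_cast]
      exact hfin i k _ l (by omega)
  have hB : ‖t‖ ≤ (4 * (1 + (H : ℝ))) ^ (n * s) := by
    refine ht2.trans ?_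
    rw [pow_mul]
    refine pow_le_pow_left₀ (by positivity) ?_ s
    have h1 : (((2 * n : ℕ)) : ℝ) ≤ 2 ^ n := by
      have h2 : 2 * n ≤ 2 ^ n := by
        obtain ⟨m, rfl⟩ : ∃ m, n = m + 1 := ⟨n - 1, by omega⟩
        have h3 : m < 2 ^ m := Nat.lt_two_pow_self
        rw [pow_succ]
        omega
      exact_mod_cast h2
    have h2 : max 1 ‖A‖ ≤ (2 * (1 + (H : ℝ))) ^ n :=
      max_le (one_le_pow₀ (by linarith)) hA
    calc (((2 * n : ℕ)) : ℝ) * max 1 ‖A‖ ≤ 2 ^ n * (2 * (1 + (H : ℝ))) ^ n :=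
          mul_le_mul h1 h2 (by positivity) (by positivity)
      _ = (4 * (1 + (H : ℝ))) ^ n := by rw [← mul_pow]; congr 1; ring
  have hcoeff : ∀ i, (|(t i : ℝ)|) ≤ (4 * (1 + (H : ℝ))) ^ (n * s) := fun i => by
    rw [← Int.norm_eq_abs]
    exact (norm_le_pi_norm t i).trans hB
  classical
  refine ⟨ofFn n (fun i => t (Sum.inl i)), ofFn n (fun i => t (Sum.inr i)), ?_,
    ofFn_natDegree_lt hn0 _, ofFn_natDegree_lt hn0 _, ?_, ?_, ?_⟩
  · by_contra hcon
    push Not at hcon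
    apply ht0
    funext i
    rcases i with i | i
    · have := congrArg (fun p => p.coeff (i : ℕ)) hcon.1
      simpa [ofFn_coeff_eq_val_of_lt _ i.2] using this
    · have := congrArg (fun p => p.coeff (i : ℕ)) hcon.2
      simpa [ofFn_coeff_eq_val_of_lt _ i.2] using this
  · intro i
    by_cases hi : i < n
    · rw [ofFn_coeff_eq_val_of_lt _ hi]
      exact hcoeff _
    · rw [ofFn_coeff_eq_zero_of_ge _ (not_lt.mp hi)]
      simp only [Int.cast_zero, abs_zero]
      positivity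
  · intro i
    by_cases hi : i < n
    · rw [ofFn_coeff_eq_val_of_lt _ hi]
      exact hcoeff _
    · rw [ofFn_coeff_eq_zero_of_ge _ (not_lt.mp hi)]
      simp only [Int.cast_zero, abs_zero]
      positivity
  · intro k hk
    rw [aeval_hasseDeriv (ofFn_natDegree_lt hn0 _), aeval_hasseDeriv (ofFn_natDegree_lt hn0 _),
      ← Fin.sum_univ_eq_sum_range (fun i => (i.choose k : ℝ) *
        (((ofFn n (fun i => t (Sum.inl i))).coeff i : ℤ) : ℝ) * α ^ (i - k)) n,
      ← Fin.sum_univ_eq_sum_range (fun i => (i.choose k : ℝ) *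
        (((ofFn n (fun i => t (Sum.inr i))).coeff i : ℤ) : ℝ) * α ^ (i - k)) n]
    have hz : ∀ l ∈ range (e + 1),
        (∑ i : Fin n, ((i : ℕ).choose k : ℝ) * (pw f e ((i : ℕ) - k) l : ℝ) * (t (Sum.inl i) : ℝ))
        - (∑ i : Fin n, ((i : ℕ).choose k : ℝ) * (pw f e ((i : ℕ) - k + 1) l : ℝ)
          * (t (Sum.inr i) : ℝ)) = 0 := by
      intro l hl
      have h1 := congrFun ht1 (⟨k, hk⟩, ⟨l, mem_range.mp hl⟩)
      simp only [Matrix.mulVec, dotProduct, A, Fintype.sum_sum_type, Sum.elim_inl, Sum.elim_inr,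
        Pi.zero_apply, neg_mul, sum_neg_distrib] at h1
      have h2 := congrArg (fun z : ℤ => (z : ℝ)) h1
      push_cast at h2
      linarith
    have h3 : ∑ l ∈ range (e + 1),
        ((∑ i : Fin n, ((i : ℕ).choose k : ℝ) * (pw f e ((i : ℕ) - k) l : ℝ) * (t (Sum.inl i) : ℝ))
        - (∑ i : Fin n, ((i : ℕ).choose k : ℝ) * (pw f e ((i : ℕ) - k + 1) l : ℝ)
          * (t (Sum.inr i) : ℝ))) * α ^ l = 0 :=
      sum_eq_zero fun l hl => by rw [hz l hl, zero_mul]
    rw [← h3]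
    simp only [sub_mul, sum_sub_distrib, sum_mul]
    rw [sum_comm, sum_comm (s := range (e + 1)), mul_sum]
    congr 1
    · refine sum_congr rfl fun i _ => ?_
      rw [ofFn_coeff_eq_val_of_lt _ i.2, ← sum_pw hf hd hα ((i : ℕ) - k), mul_sum]
      refine sum_congr rfl fun l _ => ?_
      ring
    · refine sum_congr rfl fun i _ => ?_
      rw [ofFn_coeff_eq_val_of_lt _ i.2]
      have h4 : α * (((i : ℕ).choose k : ℝ) * (t (Sum.inr ⟨(i : ℕ), i.2⟩) : ℝ) * α ^ ((i : ℕ) - k))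
          = ((i : ℕ).choose k : ℝ) * (t (Sum.inr i) : ℝ) * α ^ ((i : ℕ) - k + 1) := by
        rw [pow_succ]
        simp only [Fin.eta]
        ring
      rw [h4, ← sum_pw hf hd hα ((i : ℕ) - k + 1), mul_sum]
      refine sum_congr rfl fun l _ => ?_
      ring

end Fermat.Agent.Cor.Thue
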