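import Fermat.Agent.Corollaries.Thue.Main

/-!
# Thue's theorem, V: arbitrary real algebraic numbers
-/

open Polynomial Finset

namespace Fermat.Agent.Cor.Thue

/-- A constant factor does not matter. -/
theorem finite_const {α m₀ : ℝ}
    (h : ∀ μ : ℝ, m₀ < μ → {x : ℚ | |α - x| < (x.den : ℝ) ^ (-μ)}.Finite) (K : ℝ) {μ : ℝ}
    (hμ : m₀ < μ) (hμ0 : 0 ≤ μ) : {x : ℚ | |α - x| < K * (x.den : ℝ) ^ (-μ)}.Finite := by
  have hδ : 0 < (μ - m₀) / 2 := by linarith
  obtain ⟨N, hN⟩ := Filter.eventually_atTop.mp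
    ((tendsto_rpow_atTop hδ).eventually (Filter.eventually_ge_atTop K))
  obtain ⟨N', hN'⟩ := exists_nat_ge N
  refine ((h ((μ + m₀) / 2) (by linarith)).union
    (finite_den_le α (max K 0 + 1) N')).subset fun x hx => ?_
  have hx0 : |α - x| < K * (x.den : ℝ) ^ (-μ) := hx
  have hd1 : (1 : ℝ) ≤ x.den := by exact_mod_cast x.den_pos
  have hd0 : (0 : ℝ) < x.den := by linarith
  by_cases hxN : x.den ≤ N'
  · right
    refine ⟨hxN, hx0.trans_le ?_⟩
    have h1 : (x.den : ℝ) ^ (-μ) ≤ 1 := Real.rpow_le_one_of_one_le_of_nonpos hd1 (by linarith)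
    have h2 : 0 ≤ (x.den : ℝ) ^ (-μ) := by positivity
    have h3 := le_max_left K 0
    have h4 := le_max_right K 0
    nlinarith
  · left
    have h1 : N ≤ (x.den : ℝ) := by
      refine hN'.trans ?_
      exact_mod_cast (not_le.mp hxN).le
    have h2 := hN _ h1
    have h3 : (x.den : ℝ) ^ (-((μ + m₀) / 2))
        = (x.den : ℝ) ^ ((μ - m₀) / 2) * (x.den : ℝ) ^ (-μ) := by
      rw [← Real.rpow_add hd0]
      congr 1
      ring
    change |α - x| < _
    rw [h3]
    exact hx0.trans_le (mul_le_mul_of_nonneg_right h2 (by positivity))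

/-- **Thue's theorem** (1909): for a real algebraic number `α` of degree `d` and `μ > d / 2 + 1`,
the inequality `|α - p / q| < q ^ (-μ)` has only finitely many solutions. -/
theorem thue {α : ℝ} (hα : IsAlgebraic ℚ α) {μ : ℝ}
    (hμ : ((minpoly ℚ α).natDegree : ℝ) / 2 + 1 < μ) :
    {x : ℚ | |α - x| < (x.den : ℝ) ^ (-μ)}.Finite := by
  have hμ0 : 0 ≤ μ := by
    have : (0 : ℝ) ≤ ((minpoly ℚ α).natDegree : ℝ) := Nat.cast_nonneg _
    linarith
  by_cases hrat : α ∈ (algebraMap ℚ ℝ).range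
  · -- rational numbers
    obtain ⟨r, rfl⟩ := hrat
    have hr : (algebraMap ℚ ℝ) r = (r : ℝ) := eq_ratCast _ _
    have hdeg : (minpoly ℚ ((algebraMap ℚ ℝ) r)).natDegree = 1 := by
      rw [minpoly.eq_X_sub_C]
      exact natDegree_X_sub_C r
    rw [hdeg] at hμ
    push_cast at hμ
    refine ((finite_den_le (algebraMap ℚ ℝ r) 1 (r.den ^ 2)).union
      (Set.finite_singleton r)).subset fun x hx => ?_
    by_cases hxr : x = r
    · right; exact hxr
    · left
      have hx0 : |algebraMap ℚ ℝ r - x| < (x.den : ℝ) ^ (-μ) := hx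
      have hd1 : (1 : ℝ) ≤ x.den := by exact_mod_cast x.den_pos
      have hd0 : (0 : ℝ) < x.den := by linarith
      have hx1 : (x.den : ℝ) ^ (-μ) ≤ 1 := Real.rpow_le_one_of_one_le_of_nonpos hd1 (by linarith)
      refine ⟨?_, hx0.trans_le hx1⟩
      have h1 : (1 : ℝ) ≤ |(r : ℝ) - x| * (r.den * x.den) := by
        have h2 : ((r.num * x.den - x.num * r.den : ℤ) : ℝ) = ((r : ℝ) - x) * (r.den * x.den) := by
          have e1 : (r.num : ℝ) = (r : ℝ) * r.den := by
            have := congrArg (fun t : ℚ => (t : ℝ)) (Rat.mul_den_eq_num r).symm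
            push_cast at this
            exact this
          have e2 : (x.num : ℝ) = (x : ℝ) * x.den := by
            have := congrArg (fun t : ℚ => (t : ℝ)) (Rat.mul_den_eq_num x).symm
            push_cast at this
            exact this
          push_cast
          rw [e1, e2]
          ring
        have h3 : (r.num * x.den - x.num * r.den : ℤ) ≠ 0 := by
          intro h4
          rw [h4, Int.cast_zero] at h2
          have h5 : ((r : ℝ) - x) = 0 := by
            rcases mul_eq_zero.mp h2.symm with h | h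
            · exact h
            · have h6 : (0 : ℝ) < r.den := by exact_mod_cast r.den_pos
              exact absurd h (by positivity)
          apply hxr
          have h6 : (r : ℝ) = x := by linarith
          exact_mod_cast h6.symm
        have h4 : (1 : ℝ) ≤ |((r.num * x.den - x.num * r.den : ℤ) : ℝ)| := by
          exact_mod_cast Int.one_le_abs h3
        rw [h2, abs_mul, abs_of_nonneg (by positivity : (0 : ℝ) ≤ (r.den : ℝ) * x.den)] at h4
        exact h4
      rw [hr] at hx0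
      have hr1 : (1 : ℝ) ≤ r.den := by exact_mod_cast r.den_pos
      -- `sqrt q < den r`
      have h2 : (x.den : ℝ) ^ (-μ) ≤ (x.den : ℝ) ^ (-(3 / 2) : ℝ) :=
        Real.rpow_le_rpow_of_exponent_le hd1 (by linarith)
      have h3 : (1 : ℝ) ≤ (x.den : ℝ) ^ (-(3 / 2) : ℝ) * (r.den * x.den) :=
        h1.trans (mul_le_mul_of_nonneg_right (hx0.le.trans h2) (by positivity))
      have h4 : (x.den : ℝ) ^ (1 / 2 : ℝ) * ((x.den : ℝ) ^ (-(3 / 2) : ℝ) * x.den) = 1 := by
        nth_rewrite 3 [← Real.rpow_one (x.den : ℝ)]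
        rw [← Real.rpow_add hd0, ← Real.rpow_add hd0]
        norm_num
      have h5 : (x.den : ℝ) ^ (1 / 2 : ℝ) ≤ r.den := by
        calc (x.den : ℝ) ^ (1 / 2 : ℝ) = (x.den : ℝ) ^ (1 / 2 : ℝ) * 1 := (mul_one _).symm
          _ ≤ (x.den : ℝ) ^ (1 / 2 : ℝ) * ((x.den : ℝ) ^ (-(3 / 2) : ℝ) * (r.den * x.den)) :=
              mul_le_mul_of_nonneg_left h3 (by positivity)
          _ = r.den * ((x.den : ℝ) ^ (1 / 2 : ℝ) * ((x.den : ℝ) ^ (-(3 / 2) : ℝ) * x.den)) := by
              ring
          _ = r.den := by rw [h4, mul_one]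
      have h6 : (x.den : ℝ) ≤ (r.den : ℝ) ^ 2 := by
        have h7 : ((x.den : ℝ) ^ (1 / 2 : ℝ)) ^ 2 = x.den := by
          rw [← Real.rpow_natCast, ← Real.rpow_mul hd0.le]
          norm_num
        rw [← h7]
        exact pow_le_pow_left₀ (by positivity) h5 2
      exact_mod_cast h6
  · -- irrational numbers
    have hαZ : IsAlgebraic ℤ α :=
      (IsFractionRing.isAlgebraic_iff ℤ ℚ ℝ).mpr hα
    obtain ⟨D, hD0, hD⟩ := hαZ.exists_integral_multiple
    rw [zsmul_eq_mul] at hD
    set β : ℝ := (D : ℝ) * α with hβ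
    have hDr : (D : ℝ) ≠ 0 := by exact_mod_cast hD0
    have hβQ : IsIntegral ℚ β := hD.tower_top
    have hmin : minpoly ℚ β = (minpoly ℤ β).map (algebraMap ℤ ℚ) :=
      minpoly.isIntegrallyClosed_eq_field_fractions' ℚ hD
    have hβrat : β ∉ (algebraMap ℚ ℝ).range := by
      rintro ⟨r, hr⟩
      refine hrat ⟨r / D, ?_⟩
      rw [eq_ratCast] at hr ⊢
      push_cast
      rw [hr, hβ]
      field_simp
    have h2 : 2 ≤ (minpoly ℤ β).natDegree := by
      have h3 := (minpoly.two_le_natDegree_iff hβQ).mpr hβrat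
      rw [hmin, (minpoly.monic hD).natDegree_map] at h3
      exact h3
    have hle : (minpoly ℤ β).natDegree ≤ (minpoly ℚ α).natDegree := by
      have h3 : (minpoly ℤ β).natDegree = (minpoly ℚ β).natDegree := by
        rw [hmin, (minpoly.monic hD).natDegree_map]
      have h4 : aeval (algebraMap ℚ ℝ (D : ℚ) * α) (scaleRoots (minpoly ℚ α) (D : ℚ)) = 0 :=
        scaleRoots_aeval_eq_zero (minpoly.aeval ℚ α)
      have h5 : algebraMap ℚ ℝ (D : ℚ) * α = β := by
        rw [eq_ratCast, hβ]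
        push_cast
        rfl
      rw [h5] at h4
      have h6 : (scaleRoots (minpoly ℚ α) (D : ℚ)).Monic :=
        (monic_scaleRoots_iff _).mpr (minpoly.monic hα.isIntegral)
      have h7 := natDegree_le_natDegree (minpoly.min ℚ β h6 h4)
      rw [natDegree_scaleRoots] at h7
      rw [h3]
      exact h7
    have hfin : ∀ μ' : ℝ, ((minpoly ℤ β).natDegree : ℝ) / 2 + 1 < μ' →
        {x : ℚ | |β - x| < (x.den : ℝ) ^ (-μ')}.Finite := fun μ' hμ' =>
      thue_integer (minpoly.monic hD) (by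
        have := minpoly.irreducible hβQ
        rw [hmin] at this
        exact this) h2 (minpoly.aeval ℤ β) hμ'
    have hle' : ((minpoly ℤ β).natDegree : ℝ) ≤ (minpoly ℚ α).natDegree := by exact_mod_cast hle
    have hfinK := finite_const hfin |(D : ℝ)| (μ := μ) (by linarith) hμ0
    have hinj : Function.Injective (fun x : ℚ => (D : ℚ) * x) := by
      intro x y hxy
      have : (D : ℚ) ≠ 0 := by exact_mod_cast hD0
      exact mul_left_cancel₀ this hxy
    refine (hfinK.preimage hinj.injOn).subset fun x hx => ?_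
    have hx0 : |α - x| < (x.den : ℝ) ^ (-μ) := hx
    have hd0 : (0 : ℝ) < x.den := by exact_mod_cast x.den_pos
    change |β - (((D : ℚ) * x : ℚ) : ℝ)| < |(D : ℝ)| * (((D : ℚ) * x : ℚ).den : ℝ) ^ (-μ)
    have e1 : β - (((D : ℚ) * x : ℚ) : ℝ) = D * (α - x) := by
      rw [hβ]
      push_cast
      ring
    rw [e1, abs_mul]
    refine mul_lt_mul_of_pos_left (hx0.trans_le ?_) (abs_pos.mpr hDr)
    have hdvd : ((D : ℚ) * x).den ∣ x.den := by
      have := Rat.mul_den_dvd (D : ℚ) x
      simpa using this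
    have hle2 : (((D : ℚ) * x).den : ℝ) ≤ x.den := by
      exact_mod_cast Nat.le_of_dvd x.den_pos hdvd
    have hpos : (0 : ℝ) < ((D : ℚ) * x).den := by exact_mod_cast ((D : ℚ) * x).den_pos
    exact Real.rpow_le_rpow_of_nonpos hpos hle2 (by linarith)

/-- Thue's theorem with a constant. -/
theorem thue_const {α : ℝ} (hα : IsAlgebraic ℚ α) (K : ℝ) {μ : ℝ}
    (hμ : ((minpoly ℚ α).natDegree : ℝ) / 2 + 1 < μ) :
    {x : ℚ | |α - x| < K * (x.den : ℝ) ^ (-μ)}.Finite := by
  refine finite_const (fun μ' hμ' => thue hα hμ') K hμ ?_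
  have : (0 : ℝ) ≤ ((minpoly ℚ α).natDegree : ℝ) := Nat.cast_nonneg _
  linarith

end Fermat.Agent.Cor.Thue
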