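import Fermat.Agent.Corollaries.Thue.Powers

/-!
# Thue's theorem, II: the Wronskian
-/

open Polynomial Finset

namespace Fermat.Agent.Cor.Thue

/-- A rational polynomial that vanishes to the order `h` at a root of an irreducible `F` has degree
at least `h * deg F`. -/
theorem natDegree_mul_le {F : ℚ[X]} (hF : Irreducible F) {α : ℝ} (hα : aeval α F = 0) (h : ℕ) :
    ∀ G : ℚ[X], G ≠ 0 → (X - C α) ^ h ∣ G.map (algebraMap ℚ ℝ) →
      F.natDegree * h ≤ G.natDegree := by
  induction h with
  | zero => intro G _ _; simp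
  | succ h ih =>
    intro G hG hdvd
    have hroot : aeval α G = 0 := by
      have h1 : (X - C α) ∣ G.map (algebraMap ℚ ℝ) :=
        (dvd_pow_self _ (Nat.succ_ne_zero h)).trans hdvd
      rw [dvd_iff_isRoot] at h1
      rw [aeval_def, ← eval_map]
      exact h1
    have hFG : F ∣ G := by
      by_contra hcon
      obtain ⟨a, b, hab⟩ := (hF.coprime_iff_not_dvd).mpr hcon
      have h1 := congrArg (aeval α) hab
      simp [hα, hroot] at h1
    obtain ⟨G₁, rfl⟩ := hFG
    have hF0 : F ≠ 0 := left_ne_zero_of_mul hG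
    have hG1 : G₁ ≠ 0 := right_ne_zero_of_mul hG
    have hinj : Function.Injective (algebraMap ℚ ℝ) := (algebraMap ℚ ℝ).injective
    have hFm : F.map (algebraMap ℚ ℝ) ≠ 0 := (Polynomial.map_ne_zero_iff hinj).mpr hF0
    have hGm : G₁.map (algebraMap ℚ ℝ) ≠ 0 := (Polynomial.map_ne_zero_iff hinj).mpr hG1
    have hsep : (F.map (algebraMap ℚ ℝ)).Separable := hF.separable.map
    have h1 : rootMultiplicity α (F.map (algebraMap ℚ ℝ)) ≤ 1 :=
      rootMultiplicity_le_one_of_separable hsep α
    rw [Polynomial.map_mul, ← le_rootMultiplicity_iff (mul_ne_zero hFm hGm),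
      rootMultiplicity_mul (mul_ne_zero hFm hGm)] at hdvd
    have h2 : h ≤ rootMultiplicity α (G₁.map (algebraMap ℚ ℝ)) := by omega
    have h3 := ih G₁ hG1 ((le_rootMultiplicity_iff hGm).mp h2)
    rw [natDegree_mul hF0 hG1, mul_add, mul_one]
    omega

theorem wronskian_mul_mul {R : Type*} [CommRing R] (g a b : R[X]) :
    wronskian (g * a) (g * b) = g ^ 2 * wronskian a b := by
  simp only [wronskian, derivative_mul]
  ring

theorem exists_of_wronskian_eq_zero {P Q : ℚ[X]} (h0 : P ≠ 0 ∨ Q ≠ 0) (hW : wronskian P Q = 0) :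
    ∃ G : ℚ[X], ∃ a b : ℚ, G ≠ 0 ∧ (a ≠ 0 ∨ b ≠ 0) ∧ P = G * C a ∧ Q = G * C b := by
  obtain ⟨x, y, hx, hy, hu⟩ := extract_gcd P Q
  rw [gcd_isUnit_iff] at hu
  have hG : GCDMonoid.gcd P Q ≠ 0 := by
    rw [Ne, _root_.gcd_eq_zero_iff]
    tauto
  generalize GCDMonoid.gcd P Q = G at hx hy hG
  rw [hx, hy, wronskian_mul_mul] at hW
  have h1 : wronskian x y = 0 := by
    rcases mul_eq_zero.mp hW with h | h
    · exact absurd (pow_eq_zero_iff (two_ne_zero) |>.mp h) hG
    · exact h
  obtain ⟨h2, h3⟩ := (hu.wronskian_eq_zero_iff).mp h1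
  have h4 := derivative_eq_zero.mp h2
  have h5 := derivative_eq_zero.mp h3
  obtain ⟨a, ha⟩ := natDegree_eq_zero.mp h4
  obtain ⟨b, hb⟩ := natDegree_eq_zero.mp h5
  refine ⟨G, a, b, hG, ?_, by rw [ha]; exact hx, by rw [hb]; exact hy⟩
  by_contra hcon
  push Not at hcon
  rw [← ha, ← hb, hcon.1, hcon.2, map_zero] at hu
  exact not_isCoprime_zero_zero hu

/-- The derivatives vanish iff the power of `X - C a` divides. -/
theorem pow_dvd_of_hasseDeriv {K : Type*} [CommRing K] (G : K[X]) (a : K) (h : ℕ)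
    (hG : ∀ k < h, (hasseDeriv k G).eval a = 0) : (X - C a) ^ h ∣ G := by
  rw [X_sub_C_pow_dvd_iff, X_pow_dvd_iff]
  intro k hk
  have := hG k hk
  rwa [← taylor_coeff, taylor_apply] at this

theorem hasseDeriv_map' {R S : Type*} [Semiring R] [Semiring S] (φ : R →+* S) (k : ℕ) (G : R[X]) :
    hasseDeriv k (G.map φ) = (hasseDeriv k G).map φ := by
  ext i
  simp [hasseDeriv_coeff]

/-- **The Wronskian of the auxiliary polynomials is not zero.** -/
theorem wronskian_ne_zero {F : ℚ[X]} (hF : Irreducible F) (hF2 : 2 ≤ F.natDegree) {α : ℝ}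
    (hα : aeval α F = 0) {P Q : ℤ[X]} (h0 : P ≠ 0 ∨ Q ≠ 0) {n h : ℕ} (hP : P.natDegree < n)
    (hQ : Q.natDegree < n) (hn : n ≤ F.natDegree * h)
    (hv : ∀ k < h, aeval α (hasseDeriv k P) - α * aeval α (hasseDeriv k Q) = 0) :
    wronskian P Q ≠ 0 := by
  intro hW
  have hinj : Function.Injective (Int.castRingHom ℚ) := Int.cast_injective
  set P' := P.map (Int.castRingHom ℚ) with hP'
  set Q' := Q.map (Int.castRingHom ℚ) with hQ'
  have hW' : wronskian P' Q' = 0 := by
    have h1 : wronskian P' Q' = (wronskian P Q).map (Int.castRingHom ℚ) := by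
      simp only [wronskian, hP', hQ', derivative_map, Polynomial.map_sub, Polynomial.map_mul]
    rw [h1, hW, Polynomial.map_zero]
  have h0' : P' ≠ 0 ∨ Q' ≠ 0 := by
    rcases h0 with h | h
    · exact Or.inl ((Polynomial.map_ne_zero_iff hinj).mpr h)
    · exact Or.inr ((Polynomial.map_ne_zero_iff hinj).mpr h)
  obtain ⟨G, a, b, hG, hab, hPG, hQG⟩ := exists_of_wronskian_eq_zero h0' hW'
  -- `α` is irrational
  have hirr : (a : ℝ) - α * b ≠ 0 := by
    intro hcon
    by_cases hb : b = 0
    · rw [hb] at hcon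
      simp at hcon
      rcases hab with h | h
      · exact h hcon
      · exact h hb
    · have hαq : α = ((a / b : ℚ) : ℝ) := by
        have hb' : (b : ℝ) ≠ 0 := by exact_mod_cast hb
        push_cast
        field_simp
        linarith
      have hr : F.IsRoot (a / b) := by
        rw [hαq] at hα
        have h2 : aeval (((a / b : ℚ)) : ℝ) F = ((eval (a / b) F : ℚ) : ℝ) := by
          rw [← coe_aeval_eq_eval, ← eq_ratCast (algebraMap ℚ ℝ) (aeval (a / b) F),
            ← aeval_algebraMap_apply]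
          rfl
        rw [h2] at hα
        exact_mod_cast hα
      have h3 : F.degree = 1 := degree_eq_one_of_irreducible_of_root hF hr
      have h4 : F.natDegree = 1 := natDegree_eq_of_degree_eq_some (by simpa using h3)
      omega
  have key : ∀ k < h, (hasseDeriv k (G.map (algebraMap ℚ ℝ))).eval α = 0 := by
    intro k hk
    have h1 := hv k hk
    have h2 : ∀ U : ℤ[X], ∀ c : ℚ, U.map (Int.castRingHom ℚ) = G * C c →
        aeval α (hasseDeriv k U) = c * (hasseDeriv k (G.map (algebraMap ℚ ℝ))).eval α := by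
      intro U c hU
      have h3 : U.map (Int.castRingHom ℝ) = C (c : ℝ) * G.map (algebraMap ℚ ℝ) := by
        have h4 := congrArg (Polynomial.map (algebraMap ℚ ℝ)) hU
        rw [Polynomial.map_map, Polynomial.map_mul, map_C, mul_comm] at h4
        rw [← eq_ratCast (algebraMap ℚ ℝ) c, ← h4]
        congr 1
      have h5 : aeval α (hasseDeriv k U) = (hasseDeriv k (U.map (Int.castRingHom ℝ))).eval α := by
        rw [hasseDeriv_map', eval_map, aeval_def]
        rfl
      rw [h5, h3, ← smul_eq_C_mul, map_smul, eval_smul, smul_eq_mul]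
    rw [h2 P a hPG, h2 Q b hQG] at h1
    have h3 : ((a : ℝ) - α * b) * (hasseDeriv k (G.map (algebraMap ℚ ℝ))).eval α = 0 := by
      linear_combination h1
    exact (mul_eq_zero.mp h3).resolve_left hirr
  have hdeg := natDegree_mul_le hF hα h G hG (pow_dvd_of_hasseDeriv _ _ _ key)
  -- degree of `G` is `< n`
  have hGn : G.natDegree < n := by
    rcases hab with ha | hb
    · have h1 : P'.natDegree = G.natDegree := by
        rw [hPG, natDegree_mul_C ha]
      rw [← h1, hP', natDegree_map_eq_of_injective hinj]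
      exact hP
    · have h1 : Q'.natDegree = G.natDegree := by
        rw [hQG, natDegree_mul_C hb]
      rw [← h1, hQ', natDegree_map_eq_of_injective hinj]
      exact hQ
  omega

/-- The primitive linear polynomial of a rational number. -/
theorem isPrimitive_lin (x : ℚ) : (C (x.den : ℤ) * X - C x.num : ℤ[X]).IsPrimitive := by
  rw [isPrimitive_iff_isUnit_of_C_dvd]
  intro r hr
  rw [C_dvd_iff_dvd_coeff] at hr
  have h1 : r ∣ (x.den : ℤ) := by
    have := hr 1
    rwa [coeff_sub, coeff_C_mul, coeff_X_one, mul_one, coeff_C_succ, sub_zero] at this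
  have h0 : r ∣ x.num := by
    have := hr 0
    rwa [coeff_sub, coeff_C_mul, coeff_X_zero, mul_zero, coeff_C_zero, zero_sub, dvd_neg] at this
  have hc : IsCoprime (x.num : ℤ) (x.den : ℤ) := by
    rw [Int.isCoprime_iff_gcd_eq_one]
    have := x.reduced
    simpa [Int.gcd, Nat.Coprime] using this
  exact hc.isUnit_of_dvd' h0 h1

theorem isPrimitive_pow' {p : ℤ[X]} (hp : p.IsPrimitive) (k : ℕ) : (p ^ k).IsPrimitive := by
  induction k with
  | zero => rw [pow_zero]; exact isPrimitive_one
  | succ k ih => rw [pow_succ]; exact ih.mul hp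

/-- **The non-vanishing lemma.** -/
theorem exists_ne_zero {P Q : ℤ[X]} (hW : wronskian P Q ≠ 0) (x y : ℚ) (T : ℕ)
    (hT : ((|(wronskian P Q).leadingCoeff| : ℤ) : ℝ) < (x.den : ℝ) ^ T) :
    ∃ k ≤ T, aeval x (hasseDeriv k P) - y * aeval x (hasseDeriv k Q) ≠ 0 := by
  by_contra hcon
  push Not at hcon
  set P' := P.map (Int.castRingHom ℚ) with hP'
  set Q' := Q.map (Int.castRingHom ℚ) with hQ'
  set V := P' - C y * Q' with hV
  have hae : ∀ (U : ℤ[X]) (k : ℕ), aeval x (hasseDeriv k U)
      = (hasseDeriv k (U.map (Int.castRingHom ℚ))).eval x := by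
    intro U k
    rw [hasseDeriv_map', eval_map, aeval_def]
    rfl
  have h1 : (X - C x) ^ (T + 1) ∣ V := by
    refine pow_dvd_of_hasseDeriv _ _ _ fun k hk => ?_
    have h2 := hcon k (by omega)
    rw [hae, hae] at h2
    rw [hV, map_sub, eval_sub, ← smul_eq_C_mul, map_smul, eval_smul, smul_eq_mul]
    exact h2
  have h2 : (X - C x) ^ T ∣ V := (pow_dvd_pow _ (Nat.le_succ T)).trans h1
  have h3 : (X - C x) ^ T ∣ derivative V := by
    obtain ⟨U, hU⟩ := h1
    rw [hU, derivative_mul, derivative_pow]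
    refine dvd_add (Dvd.dvd.mul_right ?_ _) (Dvd.dvd.mul_right (pow_dvd_pow _ (Nat.le_succ T)) _)
    simp only [Nat.add_sub_cancel]
    exact Dvd.dvd.mul_right (Dvd.dvd.mul_left dvd_rfl _) _
  have h4 : (wronskian P Q).map (Int.castRingHom ℚ) = V * derivative Q' - derivative V * Q' := by
    simp only [wronskian, hV, hP', hQ', derivative_map, Polynomial.map_sub, Polynomial.map_mul,
      derivative_sub, derivative_mul, derivative_C]
    ring
  have h5 : (X - C x) ^ T ∣ (wronskian P Q).map (Int.castRingHom ℚ) := by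
    rw [h4]
    exact dvd_sub (Dvd.dvd.mul_right h2 _) (Dvd.dvd.mul_right h3 _)
  set ℓ : ℤ[X] := C (x.den : ℤ) * X - C x.num with hℓ
  have hden : ((x.den : ℤ) : ℚ) ≠ 0 := by
    have := x.den_nz
    exact_mod_cast this
  have hℓm : ℓ.map (Int.castRingHom ℚ) = C ((x.den : ℤ) : ℚ) * (X - C x) := by
    rw [hℓ, Polynomial.map_sub, Polynomial.map_mul, map_C, map_X, map_C, mul_sub, ← C_mul]
    congr 2
    simp only [eq_intCast]
    have := x.den_mul_eq_num
    push_cast
    exact_mod_cast this.symm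
  have h6 : ℓ ^ T ∣ wronskian P Q := by
    rw [IsPrimitive.Int.dvd_iff_map_cast_dvd_map_cast _ _ (isPrimitive_pow' (isPrimitive_lin x) T),
      Polynomial.map_pow, hℓm, mul_pow, ← C_pow]
    rw [(isUnit_C.mpr (IsUnit.mk0 _ (pow_ne_zero T hden))).mul_left_dvd]
    exact h5
  have h7 : (ℓ ^ T).leadingCoeff ∣ (wronskian P Q).leadingCoeff := leadingCoeff_dvd_leadingCoeff h6
  have h8 : ℓ.leadingCoeff = (x.den : ℤ) := by
    have hd0 : (x.den : ℤ) ≠ 0 := by
      have := x.den_nz
      exact_mod_cast this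
    rw [hℓ, sub_eq_add_neg, ← C_neg, leadingCoeff_linear hd0]
  rw [leadingCoeff_pow, h8] at h7
  have h9 := Int.le_of_dvd (abs_pos.mpr (leadingCoeff_ne_zero.mpr hW)) ((dvd_abs _ _).mpr h7)
  have h10 : ((x.den : ℝ)) ^ T ≤ ((|(wronskian P Q).leadingCoeff| : ℤ) : ℝ) := by
    exact_mod_cast h9
  linarith

end Fermat.Agent.Cor.Thue
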